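import Fermat.Agent.X5.Defs

/-! GENERATED by gen_univ.py: the coordinate forms of the universal 5-torsion points (scaled by 25, 125) -/

set_option autoImplicit false
set_option linter.unusedVariables false
set_option linter.style.longLine false

namespace Fermat.Agent.X5.Univ

variable {R : Type*} [CommRing R]

/-- `25 * X`-coordinate form of the universal 5-torsion point with label `(0, 1)`. -/
def X_0_1 (ζ a b : R) : R :=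
  (75) * a ^ 10
      + (900) * a ^ 8 * b ^ 2
      + (-900) * a ^ 7 * b ^ 3
      + (1800) * a ^ 6 * b ^ 4
      + (2250) * a ^ 5 * b ^ 5
      + (4500) * a ^ 4 * b ^ 6
      + (2700) * a ^ 3 * b ^ 7
      + (1800) * a ^ 2 * b ^ 8
      + (900) * a * b ^ 9
      + (75) * b ^ 10

/-- `125 * Y`-coordinate form of the universal 5-torsion point with label `(0, 1)`. -/
def Y_0_1 (ζ a b : R) : R :=
  (13500) * a ^ 13 * b ^ 2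
      + (13500) * a ^ 12 * b ^ 3
      + (54000) * a ^ 11 * b ^ 4
      + (67500) * a ^ 9 * b ^ 6
      + (81000) * a ^ 8 * b ^ 7
      + (283500) * a ^ 7 * b ^ 8
      + (391500) * a ^ 6 * b ^ 9
      + (337500) * a ^ 5 * b ^ 10
      + (202500) * a ^ 4 * b ^ 11
      + (121500) * a ^ 3 * b ^ 12
      + (54000) * a ^ 2 * b ^ 13
      + (13500) * a * b ^ 14

/-- `25 * X`-coordinate form of the universal 5-torsion point with label `(0, 2)`. -/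
def X_0_2 (ζ a b : R) : R :=
  (75) * a ^ 10
      + (-900) * a ^ 9 * b
      + (1800) * a ^ 8 * b ^ 2
      + (-2700) * a ^ 7 * b ^ 3
      + (4500) * a ^ 6 * b ^ 4
      + (-2250) * a ^ 5 * b ^ 5
      + (1800) * a ^ 4 * b ^ 6
      + (900) * a ^ 3 * b ^ 7
      + (900) * a ^ 2 * b ^ 8
      + (75) * b ^ 10

/-- `125 * Y`-coordinate form of the universal 5-torsion point with label `(0, 2)`. -/
def Y_0_2 (ζ a b : R) : R :=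
  (13500) * a ^ 14 * b
      + (-54000) * a ^ 13 * b ^ 2
      + (121500) * a ^ 12 * b ^ 3
      + (-202500) * a ^ 11 * b ^ 4
      + (337500) * a ^ 10 * b ^ 5
      + (-391500) * a ^ 9 * b ^ 6
      + (283500) * a ^ 8 * b ^ 7
      + (-81000) * a ^ 7 * b ^ 8
      + (67500) * a ^ 6 * b ^ 9
      + (54000) * a ^ 4 * b ^ 11
      + (-13500) * a ^ 3 * b ^ 12
      + (13500) * a ^ 2 * b ^ 13

/-- `25 * X`-coordinate form of the universal 5-torsion point with label `(0, 3)`. -/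
def X_0_3 (ζ a b : R) : R :=
  (75) * a ^ 10
      + (-900) * a ^ 9 * b
      + (1800) * a ^ 8 * b ^ 2
      + (-2700) * a ^ 7 * b ^ 3
      + (4500) * a ^ 6 * b ^ 4
      + (-2250) * a ^ 5 * b ^ 5
      + (1800) * a ^ 4 * b ^ 6
      + (900) * a ^ 3 * b ^ 7
      + (900) * a ^ 2 * b ^ 8
      + (75) * b ^ 10

/-- `125 * Y`-coordinate form of the universal 5-torsion point with label `(0, 3)`. -/
def Y_0_3 (ζ a b : R) : R :=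
  (-13500) * a ^ 14 * b
      + (54000) * a ^ 13 * b ^ 2
      + (-121500) * a ^ 12 * b ^ 3
      + (202500) * a ^ 11 * b ^ 4
      + (-337500) * a ^ 10 * b ^ 5
      + (391500) * a ^ 9 * b ^ 6
      + (-283500) * a ^ 8 * b ^ 7
      + (81000) * a ^ 7 * b ^ 8
      + (-67500) * a ^ 6 * b ^ 9
      + (-54000) * a ^ 4 * b ^ 11
      + (13500) * a ^ 3 * b ^ 12
      + (-13500) * a ^ 2 * b ^ 13

/-- `25 * X`-coordinate form of the universal 5-torsion point with label `(0, 4)`. -/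
def X_0_4 (ζ a b : R) : R :=
  (75) * a ^ 10
      + (900) * a ^ 8 * b ^ 2
      + (-900) * a ^ 7 * b ^ 3
      + (1800) * a ^ 6 * b ^ 4
      + (2250) * a ^ 5 * b ^ 5
      + (4500) * a ^ 4 * b ^ 6
      + (2700) * a ^ 3 * b ^ 7
      + (1800) * a ^ 2 * b ^ 8
      + (900) * a * b ^ 9
      + (75) * b ^ 10

/-- `125 * Y`-coordinate form of the universal 5-torsion point with label `(0, 4)`. -/
def Y_0_4 (ζ a b : R) : R :=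
  (-13500) * a ^ 13 * b ^ 2
      + (-13500) * a ^ 12 * b ^ 3
      + (-54000) * a ^ 11 * b ^ 4
      + (-67500) * a ^ 9 * b ^ 6
      + (-81000) * a ^ 8 * b ^ 7
      + (-283500) * a ^ 7 * b ^ 8
      + (-391500) * a ^ 6 * b ^ 9
      + (-337500) * a ^ 5 * b ^ 10
      + (-202500) * a ^ 4 * b ^ 11
      + (-121500) * a ^ 3 * b ^ 12
      + (-54000) * a ^ 2 * b ^ 13
      + (-13500) * a * b ^ 14

/-- `25 * X`-coordinate form of the universal 5-torsion point with label `(1, 0)`. -/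
def X_1_0 (ζ a b : R) : R :=
  (-465 - 180 * ζ ^ 2 - 180 * ζ ^ 3) * a ^ 10
      + (-990 - 1980 * ζ ^ 2 - 1980 * ζ ^ 3) * a ^ 5 * b ^ 5
      + (-285 + 180 * ζ ^ 2 + 180 * ζ ^ 3) * b ^ 10

/-- `125 * Y`-coordinate form of the universal 5-torsion point with label `(1, 0)`. -/
def Y_1_0 (ζ a b : R) : R :=
  (-2700 - 5400 * ζ + 2700 * ζ ^ 2 - 8100 * ζ ^ 3) * a ^ 15
      + (-24300 - 48600 * ζ + 37800 * ζ ^ 2 - 86400 * ζ ^ 3) * a ^ 10 * b ^ 5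
      + (62100 + 124200 * ζ + 86400 * ζ ^ 2 + 37800 * ζ ^ 3) * a ^ 5 * b ^ 10
      + (-5400 - 10800 * ζ - 8100 * ζ ^ 2 - 2700 * ζ ^ 3) * b ^ 15

/-- `25 * X`-coordinate form of the universal 5-torsion point with label `(1, 1)`. -/
def X_1_1 (ζ a b : R) : R :=
  (75) * a ^ 10
      + (900 * ζ ^ 3) * a ^ 8 * b ^ 2
      + (-900 * ζ ^ 2) * a ^ 7 * b ^ 3
      + (1800 * ζ) * a ^ 6 * b ^ 4
      + (2250) * a ^ 5 * b ^ 5
      + (-4500 - 4500 * ζ - 4500 * ζ ^ 2 - 4500 * ζ ^ 3) * a ^ 4 * b ^ 6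
      + (2700 * ζ ^ 3) * a ^ 3 * b ^ 7
      + (1800 * ζ ^ 2) * a ^ 2 * b ^ 8
      + (900 * ζ) * a * b ^ 9
      + (75) * b ^ 10

/-- `125 * Y`-coordinate form of the universal 5-torsion point with label `(1, 1)`. -/
def Y_1_1 (ζ a b : R) : R :=
  (13500 * ζ ^ 3) * a ^ 13 * b ^ 2
      + (13500 * ζ ^ 2) * a ^ 12 * b ^ 3
      + (54000 * ζ) * a ^ 11 * b ^ 4
      + (-67500 - 67500 * ζ - 67500 * ζ ^ 2 - 67500 * ζ ^ 3) * a ^ 9 * b ^ 6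
      + (81000 * ζ ^ 3) * a ^ 8 * b ^ 7
      + (283500 * ζ ^ 2) * a ^ 7 * b ^ 8
      + (391500 * ζ) * a ^ 6 * b ^ 9
      + (337500) * a ^ 5 * b ^ 10
      + (-202500 - 202500 * ζ - 202500 * ζ ^ 2 - 202500 * ζ ^ 3) * a ^ 4 * b ^ 11
      + (121500 * ζ ^ 3) * a ^ 3 * b ^ 12
      + (54000 * ζ ^ 2) * a ^ 2 * b ^ 13
      + (13500 * ζ) * a * b ^ 14

/-- `25 * X`-coordinate form of the universal 5-torsion point with label `(1, 2)`. -/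
def X_1_2 (ζ a b : R) : R :=
  (75) * a ^ 10
      + (-900 * ζ ^ 2) * a ^ 9 * b
      + (-1800 - 1800 * ζ - 1800 * ζ ^ 2 - 1800 * ζ ^ 3) * a ^ 8 * b ^ 2
      + (-2700 * ζ) * a ^ 7 * b ^ 3
      + (4500 * ζ ^ 3) * a ^ 6 * b ^ 4
      + (-2250) * a ^ 5 * b ^ 5
      + (1800 * ζ ^ 2) * a ^ 4 * b ^ 6
      + (-900 - 900 * ζ - 900 * ζ ^ 2 - 900 * ζ ^ 3) * a ^ 3 * b ^ 7
      + (900 * ζ) * a ^ 2 * b ^ 8
      + (75) * b ^ 10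

/-- `125 * Y`-coordinate form of the universal 5-torsion point with label `(1, 2)`. -/
def Y_1_2 (ζ a b : R) : R :=
  (13500 * ζ ^ 2) * a ^ 14 * b
      + (54000 + 54000 * ζ + 54000 * ζ ^ 2 + 54000 * ζ ^ 3) * a ^ 13 * b ^ 2
      + (121500 * ζ) * a ^ 12 * b ^ 3
      + (-202500 * ζ ^ 3) * a ^ 11 * b ^ 4
      + (337500) * a ^ 10 * b ^ 5
      + (-391500 * ζ ^ 2) * a ^ 9 * b ^ 6
      + (-283500 - 283500 * ζ - 283500 * ζ ^ 2 - 283500 * ζ ^ 3) * a ^ 8 * b ^ 7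
      + (-81000 * ζ) * a ^ 7 * b ^ 8
      + (67500 * ζ ^ 3) * a ^ 6 * b ^ 9
      + (54000 * ζ ^ 2) * a ^ 4 * b ^ 11
      + (13500 + 13500 * ζ + 13500 * ζ ^ 2 + 13500 * ζ ^ 3) * a ^ 3 * b ^ 12
      + (13500 * ζ) * a ^ 2 * b ^ 13

/-- `25 * X`-coordinate form of the universal 5-torsion point with label `(1, 3)`. -/
def X_1_3 (ζ a b : R) : R :=
  (75) * a ^ 10
      + (-900 * ζ ^ 3) * a ^ 9 * b
      + (1800 * ζ) * a ^ 8 * b ^ 2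
      + (2700 + 2700 * ζ + 2700 * ζ ^ 2 + 2700 * ζ ^ 3) * a ^ 7 * b ^ 3
      + (4500 * ζ ^ 2) * a ^ 6 * b ^ 4
      + (-2250) * a ^ 5 * b ^ 5
      + (1800 * ζ ^ 3) * a ^ 4 * b ^ 6
      + (900 * ζ) * a ^ 3 * b ^ 7
      + (-900 - 900 * ζ - 900 * ζ ^ 2 - 900 * ζ ^ 3) * a ^ 2 * b ^ 8
      + (75) * b ^ 10

/-- `125 * Y`-coordinate form of the universal 5-torsion point with label `(1, 3)`. -/
def Y_1_3 (ζ a b : R) : R :=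
  (-13500 * ζ ^ 3) * a ^ 14 * b
      + (54000 * ζ) * a ^ 13 * b ^ 2
      + (121500 + 121500 * ζ + 121500 * ζ ^ 2 + 121500 * ζ ^ 3) * a ^ 12 * b ^ 3
      + (202500 * ζ ^ 2) * a ^ 11 * b ^ 4
      + (-337500) * a ^ 10 * b ^ 5
      + (391500 * ζ ^ 3) * a ^ 9 * b ^ 6
      + (-283500 * ζ) * a ^ 8 * b ^ 7
      + (-81000 - 81000 * ζ - 81000 * ζ ^ 2 - 81000 * ζ ^ 3) * a ^ 7 * b ^ 8
      + (-67500 * ζ ^ 2) * a ^ 6 * b ^ 9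
      + (-54000 * ζ ^ 3) * a ^ 4 * b ^ 11
      + (13500 * ζ) * a ^ 3 * b ^ 12
      + (13500 + 13500 * ζ + 13500 * ζ ^ 2 + 13500 * ζ ^ 3) * a ^ 2 * b ^ 13

/-- `25 * X`-coordinate form of the universal 5-torsion point with label `(1, 4)`. -/
def X_1_4 (ζ a b : R) : R :=
  (75) * a ^ 10
      + (900 * ζ ^ 2) * a ^ 8 * b ^ 2
      + (-900 * ζ ^ 3) * a ^ 7 * b ^ 3
      + (-1800 - 1800 * ζ - 1800 * ζ ^ 2 - 1800 * ζ ^ 3) * a ^ 6 * b ^ 4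
      + (2250) * a ^ 5 * b ^ 5
      + (4500 * ζ) * a ^ 4 * b ^ 6
      + (2700 * ζ ^ 2) * a ^ 3 * b ^ 7
      + (1800 * ζ ^ 3) * a ^ 2 * b ^ 8
      + (-900 - 900 * ζ - 900 * ζ ^ 2 - 900 * ζ ^ 3) * a * b ^ 9
      + (75) * b ^ 10

/-- `125 * Y`-coordinate form of the universal 5-torsion point with label `(1, 4)`. -/
def Y_1_4 (ζ a b : R) : R :=
  (-13500 * ζ ^ 2) * a ^ 13 * b ^ 2
      + (-13500 * ζ ^ 3) * a ^ 12 * b ^ 3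
      + (54000 + 54000 * ζ + 54000 * ζ ^ 2 + 54000 * ζ ^ 3) * a ^ 11 * b ^ 4
      + (-67500 * ζ) * a ^ 9 * b ^ 6
      + (-81000 * ζ ^ 2) * a ^ 8 * b ^ 7
      + (-283500 * ζ ^ 3) * a ^ 7 * b ^ 8
      + (391500 + 391500 * ζ + 391500 * ζ ^ 2 + 391500 * ζ ^ 3) * a ^ 6 * b ^ 9
      + (-337500) * a ^ 5 * b ^ 10
      + (-202500 * ζ) * a ^ 4 * b ^ 11
      + (-121500 * ζ ^ 2) * a ^ 3 * b ^ 12
      + (-54000 * ζ ^ 3) * a ^ 2 * b ^ 13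
      + (13500 + 13500 * ζ + 13500 * ζ ^ 2 + 13500 * ζ ^ 3) * a * b ^ 14

/-- `25 * X`-coordinate form of the universal 5-torsion point with label `(2, 0)`. -/
def X_2_0 (ζ a b : R) : R :=
  (-285 + 180 * ζ ^ 2 + 180 * ζ ^ 3) * a ^ 10
      + (990 + 1980 * ζ ^ 2 + 1980 * ζ ^ 3) * a ^ 5 * b ^ 5
      + (-465 - 180 * ζ ^ 2 - 180 * ζ ^ 3) * b ^ 10

/-- `125 * Y`-coordinate form of the universal 5-torsion point with label `(2, 0)`. -/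
def Y_2_0 (ζ a b : R) : R :=
  (-5400 - 10800 * ζ - 8100 * ζ ^ 2 - 2700 * ζ ^ 3) * a ^ 15
      + (-62100 - 124200 * ζ - 86400 * ζ ^ 2 - 37800 * ζ ^ 3) * a ^ 10 * b ^ 5
      + (-24300 - 48600 * ζ + 37800 * ζ ^ 2 - 86400 * ζ ^ 3) * a ^ 5 * b ^ 10
      + (2700 + 5400 * ζ - 2700 * ζ ^ 2 + 8100 * ζ ^ 3) * b ^ 15

/-- `25 * X`-coordinate form of the universal 5-torsion point with label `(2, 1)`. -/
def X_2_1 (ζ a b : R) : R :=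
  (75) * a ^ 10
      + (900 * ζ) * a ^ 8 * b ^ 2
      + (900 + 900 * ζ + 900 * ζ ^ 2 + 900 * ζ ^ 3) * a ^ 7 * b ^ 3
      + (1800 * ζ ^ 2) * a ^ 6 * b ^ 4
      + (2250) * a ^ 5 * b ^ 5
      + (4500 * ζ ^ 3) * a ^ 4 * b ^ 6
      + (2700 * ζ) * a ^ 3 * b ^ 7
      + (-1800 - 1800 * ζ - 1800 * ζ ^ 2 - 1800 * ζ ^ 3) * a ^ 2 * b ^ 8
      + (900 * ζ ^ 2) * a * b ^ 9
      + (75) * b ^ 10

/-- `125 * Y`-coordinate form of the universal 5-torsion point with label `(2, 1)`. -/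
def Y_2_1 (ζ a b : R) : R :=
  (13500 * ζ) * a ^ 13 * b ^ 2
      + (-13500 - 13500 * ζ - 13500 * ζ ^ 2 - 13500 * ζ ^ 3) * a ^ 12 * b ^ 3
      + (54000 * ζ ^ 2) * a ^ 11 * b ^ 4
      + (67500 * ζ ^ 3) * a ^ 9 * b ^ 6
      + (81000 * ζ) * a ^ 8 * b ^ 7
      + (-283500 - 283500 * ζ - 283500 * ζ ^ 2 - 283500 * ζ ^ 3) * a ^ 7 * b ^ 8
      + (391500 * ζ ^ 2) * a ^ 6 * b ^ 9
      + (337500) * a ^ 5 * b ^ 10
      + (202500 * ζ ^ 3) * a ^ 4 * b ^ 11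
      + (121500 * ζ) * a ^ 3 * b ^ 12
      + (-54000 - 54000 * ζ - 54000 * ζ ^ 2 - 54000 * ζ ^ 3) * a ^ 2 * b ^ 13
      + (13500 * ζ ^ 2) * a * b ^ 14

/-- `25 * X`-coordinate form of the universal 5-torsion point with label `(2, 2)`. -/
def X_2_2 (ζ a b : R) : R :=
  (75) * a ^ 10
      + (900 + 900 * ζ + 900 * ζ ^ 2 + 900 * ζ ^ 3) * a ^ 9 * b
      + (1800 * ζ ^ 3) * a ^ 8 * b ^ 2
      + (-2700 * ζ ^ 2) * a ^ 7 * b ^ 3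
      + (4500 * ζ) * a ^ 6 * b ^ 4
      + (-2250) * a ^ 5 * b ^ 5
      + (-1800 - 1800 * ζ - 1800 * ζ ^ 2 - 1800 * ζ ^ 3) * a ^ 4 * b ^ 6
      + (900 * ζ ^ 3) * a ^ 3 * b ^ 7
      + (900 * ζ ^ 2) * a ^ 2 * b ^ 8
      + (75) * b ^ 10

/-- `125 * Y`-coordinate form of the universal 5-torsion point with label `(2, 2)`. -/
def Y_2_2 (ζ a b : R) : R :=
  (-13500 - 13500 * ζ - 13500 * ζ ^ 2 - 13500 * ζ ^ 3) * a ^ 14 * b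
      + (-54000 * ζ ^ 3) * a ^ 13 * b ^ 2
      + (121500 * ζ ^ 2) * a ^ 12 * b ^ 3
      + (-202500 * ζ) * a ^ 11 * b ^ 4
      + (337500) * a ^ 10 * b ^ 5
      + (391500 + 391500 * ζ + 391500 * ζ ^ 2 + 391500 * ζ ^ 3) * a ^ 9 * b ^ 6
      + (283500 * ζ ^ 3) * a ^ 8 * b ^ 7
      + (-81000 * ζ ^ 2) * a ^ 7 * b ^ 8
      + (67500 * ζ) * a ^ 6 * b ^ 9
      + (-54000 - 54000 * ζ - 54000 * ζ ^ 2 - 54000 * ζ ^ 3) * a ^ 4 * b ^ 11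
      + (-13500 * ζ ^ 3) * a ^ 3 * b ^ 12
      + (13500 * ζ ^ 2) * a ^ 2 * b ^ 13

/-- `25 * X`-coordinate form of the universal 5-torsion point with label `(2, 3)`. -/
def X_2_3 (ζ a b : R) : R :=
  (75) * a ^ 10
      + (-900 * ζ) * a ^ 9 * b
      + (1800 * ζ ^ 2) * a ^ 8 * b ^ 2
      + (-2700 * ζ ^ 3) * a ^ 7 * b ^ 3
      + (-4500 - 4500 * ζ - 4500 * ζ ^ 2 - 4500 * ζ ^ 3) * a ^ 6 * b ^ 4
      + (-2250) * a ^ 5 * b ^ 5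
      + (1800 * ζ) * a ^ 4 * b ^ 6
      + (900 * ζ ^ 2) * a ^ 3 * b ^ 7
      + (900 * ζ ^ 3) * a ^ 2 * b ^ 8
      + (75) * b ^ 10

/-- `125 * Y`-coordinate form of the universal 5-torsion point with label `(2, 3)`. -/
def Y_2_3 (ζ a b : R) : R :=
  (-13500 * ζ) * a ^ 14 * b
      + (54000 * ζ ^ 2) * a ^ 13 * b ^ 2
      + (-121500 * ζ ^ 3) * a ^ 12 * b ^ 3
      + (-202500 - 202500 * ζ - 202500 * ζ ^ 2 - 202500 * ζ ^ 3) * a ^ 11 * b ^ 4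
      + (-337500) * a ^ 10 * b ^ 5
      + (391500 * ζ) * a ^ 9 * b ^ 6
      + (-283500 * ζ ^ 2) * a ^ 8 * b ^ 7
      + (81000 * ζ ^ 3) * a ^ 7 * b ^ 8
      + (67500 + 67500 * ζ + 67500 * ζ ^ 2 + 67500 * ζ ^ 3) * a ^ 6 * b ^ 9
      + (-54000 * ζ) * a ^ 4 * b ^ 11
      + (13500 * ζ ^ 2) * a ^ 3 * b ^ 12
      + (-13500 * ζ ^ 3) * a ^ 2 * b ^ 13

/-- `25 * X`-coordinate form of the universal 5-torsion point with label `(2, 4)`. -/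
def X_2_4 (ζ a b : R) : R :=
  (75) * a ^ 10
      + (-900 - 900 * ζ - 900 * ζ ^ 2 - 900 * ζ ^ 3) * a ^ 8 * b ^ 2
      + (-900 * ζ) * a ^ 7 * b ^ 3
      + (1800 * ζ ^ 3) * a ^ 6 * b ^ 4
      + (2250) * a ^ 5 * b ^ 5
      + (4500 * ζ ^ 2) * a ^ 4 * b ^ 6
      + (-2700 - 2700 * ζ - 2700 * ζ ^ 2 - 2700 * ζ ^ 3) * a ^ 3 * b ^ 7
      + (1800 * ζ) * a ^ 2 * b ^ 8
      + (900 * ζ ^ 3) * a * b ^ 9
      + (75) * b ^ 10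

/-- `125 * Y`-coordinate form of the universal 5-torsion point with label `(2, 4)`. -/
def Y_2_4 (ζ a b : R) : R :=
  (13500 + 13500 * ζ + 13500 * ζ ^ 2 + 13500 * ζ ^ 3) * a ^ 13 * b ^ 2
      + (-13500 * ζ) * a ^ 12 * b ^ 3
      + (-54000 * ζ ^ 3) * a ^ 11 * b ^ 4
      + (-67500 * ζ ^ 2) * a ^ 9 * b ^ 6
      + (81000 + 81000 * ζ + 81000 * ζ ^ 2 + 81000 * ζ ^ 3) * a ^ 8 * b ^ 7
      + (-283500 * ζ) * a ^ 7 * b ^ 8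
      + (-391500 * ζ ^ 3) * a ^ 6 * b ^ 9
      + (-337500) * a ^ 5 * b ^ 10
      + (-202500 * ζ ^ 2) * a ^ 4 * b ^ 11
      + (121500 + 121500 * ζ + 121500 * ζ ^ 2 + 121500 * ζ ^ 3) * a ^ 3 * b ^ 12
      + (-54000 * ζ) * a ^ 2 * b ^ 13
      + (-13500 * ζ ^ 3) * a * b ^ 14

/-- `25 * X`-coordinate form of the universal 5-torsion point with label `(3, 0)`. -/
def X_3_0 (ζ a b : R) : R :=
  (-285 + 180 * ζ ^ 2 + 180 * ζ ^ 3) * a ^ 10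
      + (990 + 1980 * ζ ^ 2 + 1980 * ζ ^ 3) * a ^ 5 * b ^ 5
      + (-465 - 180 * ζ ^ 2 - 180 * ζ ^ 3) * b ^ 10

/-- `125 * Y`-coordinate form of the universal 5-torsion point with label `(3, 0)`. -/
def Y_3_0 (ζ a b : R) : R :=
  (5400 + 10800 * ζ + 8100 * ζ ^ 2 + 2700 * ζ ^ 3) * a ^ 15
      + (62100 + 124200 * ζ + 86400 * ζ ^ 2 + 37800 * ζ ^ 3) * a ^ 10 * b ^ 5
      + (24300 + 48600 * ζ - 37800 * ζ ^ 2 + 86400 * ζ ^ 3) * a ^ 5 * b ^ 10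
      + (-2700 - 5400 * ζ + 2700 * ζ ^ 2 - 8100 * ζ ^ 3) * b ^ 15

/-- `25 * X`-coordinate form of the universal 5-torsion point with label `(3, 1)`. -/
def X_3_1 (ζ a b : R) : R :=
  (75) * a ^ 10
      + (-900 - 900 * ζ - 900 * ζ ^ 2 - 900 * ζ ^ 3) * a ^ 8 * b ^ 2
      + (-900 * ζ) * a ^ 7 * b ^ 3
      + (1800 * ζ ^ 3) * a ^ 6 * b ^ 4
      + (2250) * a ^ 5 * b ^ 5
      + (4500 * ζ ^ 2) * a ^ 4 * b ^ 6
      + (-2700 - 2700 * ζ - 2700 * ζ ^ 2 - 2700 * ζ ^ 3) * a ^ 3 * b ^ 7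
      + (1800 * ζ) * a ^ 2 * b ^ 8
      + (900 * ζ ^ 3) * a * b ^ 9
      + (75) * b ^ 10

/-- `125 * Y`-coordinate form of the universal 5-torsion point with label `(3, 1)`. -/
def Y_3_1 (ζ a b : R) : R :=
  (-13500 - 13500 * ζ - 13500 * ζ ^ 2 - 13500 * ζ ^ 3) * a ^ 13 * b ^ 2
      + (13500 * ζ) * a ^ 12 * b ^ 3
      + (54000 * ζ ^ 3) * a ^ 11 * b ^ 4
      + (67500 * ζ ^ 2) * a ^ 9 * b ^ 6
      + (-81000 - 81000 * ζ - 81000 * ζ ^ 2 - 81000 * ζ ^ 3) * a ^ 8 * b ^ 7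
      + (283500 * ζ) * a ^ 7 * b ^ 8
      + (391500 * ζ ^ 3) * a ^ 6 * b ^ 9
      + (337500) * a ^ 5 * b ^ 10
      + (202500 * ζ ^ 2) * a ^ 4 * b ^ 11
      + (-121500 - 121500 * ζ - 121500 * ζ ^ 2 - 121500 * ζ ^ 3) * a ^ 3 * b ^ 12
      + (54000 * ζ) * a ^ 2 * b ^ 13
      + (13500 * ζ ^ 3) * a * b ^ 14

/-- `25 * X`-coordinate form of the universal 5-torsion point with label `(3, 2)`. -/
def X_3_2 (ζ a b : R) : R :=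
  (75) * a ^ 10
      + (-900 * ζ) * a ^ 9 * b
      + (1800 * ζ ^ 2) * a ^ 8 * b ^ 2
      + (-2700 * ζ ^ 3) * a ^ 7 * b ^ 3
      + (-4500 - 4500 * ζ - 4500 * ζ ^ 2 - 4500 * ζ ^ 3) * a ^ 6 * b ^ 4
      + (-2250) * a ^ 5 * b ^ 5
      + (1800 * ζ) * a ^ 4 * b ^ 6
      + (900 * ζ ^ 2) * a ^ 3 * b ^ 7
      + (900 * ζ ^ 3) * a ^ 2 * b ^ 8
      + (75) * b ^ 10

/-- `125 * Y`-coordinate form of the universal 5-torsion point with label `(3, 2)`. -/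
def Y_3_2 (ζ a b : R) : R :=
  (13500 * ζ) * a ^ 14 * b
      + (-54000 * ζ ^ 2) * a ^ 13 * b ^ 2
      + (121500 * ζ ^ 3) * a ^ 12 * b ^ 3
      + (202500 + 202500 * ζ + 202500 * ζ ^ 2 + 202500 * ζ ^ 3) * a ^ 11 * b ^ 4
      + (337500) * a ^ 10 * b ^ 5
      + (-391500 * ζ) * a ^ 9 * b ^ 6
      + (283500 * ζ ^ 2) * a ^ 8 * b ^ 7
      + (-81000 * ζ ^ 3) * a ^ 7 * b ^ 8
      + (-67500 - 67500 * ζ - 67500 * ζ ^ 2 - 67500 * ζ ^ 3) * a ^ 6 * b ^ 9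
      + (54000 * ζ) * a ^ 4 * b ^ 11
      + (-13500 * ζ ^ 2) * a ^ 3 * b ^ 12
      + (13500 * ζ ^ 3) * a ^ 2 * b ^ 13

/-- `25 * X`-coordinate form of the universal 5-torsion point with label `(3, 3)`. -/
def X_3_3 (ζ a b : R) : R :=
  (75) * a ^ 10
      + (900 + 900 * ζ + 900 * ζ ^ 2 + 900 * ζ ^ 3) * a ^ 9 * b
      + (1800 * ζ ^ 3) * a ^ 8 * b ^ 2
      + (-2700 * ζ ^ 2) * a ^ 7 * b ^ 3
      + (4500 * ζ) * a ^ 6 * b ^ 4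
      + (-2250) * a ^ 5 * b ^ 5
      + (-1800 - 1800 * ζ - 1800 * ζ ^ 2 - 1800 * ζ ^ 3) * a ^ 4 * b ^ 6
      + (900 * ζ ^ 3) * a ^ 3 * b ^ 7
      + (900 * ζ ^ 2) * a ^ 2 * b ^ 8
      + (75) * b ^ 10

/-- `125 * Y`-coordinate form of the universal 5-torsion point with label `(3, 3)`. -/
def Y_3_3 (ζ a b : R) : R :=
  (13500 + 13500 * ζ + 13500 * ζ ^ 2 + 13500 * ζ ^ 3) * a ^ 14 * b
      + (54000 * ζ ^ 3) * a ^ 13 * b ^ 2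
      + (-121500 * ζ ^ 2) * a ^ 12 * b ^ 3
      + (202500 * ζ) * a ^ 11 * b ^ 4
      + (-337500) * a ^ 10 * b ^ 5
      + (-391500 - 391500 * ζ - 391500 * ζ ^ 2 - 391500 * ζ ^ 3) * a ^ 9 * b ^ 6
      + (-283500 * ζ ^ 3) * a ^ 8 * b ^ 7
      + (81000 * ζ ^ 2) * a ^ 7 * b ^ 8
      + (-67500 * ζ) * a ^ 6 * b ^ 9
      + (54000 + 54000 * ζ + 54000 * ζ ^ 2 + 54000 * ζ ^ 3) * a ^ 4 * b ^ 11
      + (13500 * ζ ^ 3) * a ^ 3 * b ^ 12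
      + (-13500 * ζ ^ 2) * a ^ 2 * b ^ 13

/-- `25 * X`-coordinate form of the universal 5-torsion point with label `(3, 4)`. -/
def X_3_4 (ζ a b : R) : R :=
  (75) * a ^ 10
      + (900 * ζ) * a ^ 8 * b ^ 2
      + (900 + 900 * ζ + 900 * ζ ^ 2 + 900 * ζ ^ 3) * a ^ 7 * b ^ 3
      + (1800 * ζ ^ 2) * a ^ 6 * b ^ 4
      + (2250) * a ^ 5 * b ^ 5
      + (4500 * ζ ^ 3) * a ^ 4 * b ^ 6
      + (2700 * ζ) * a ^ 3 * b ^ 7
      + (-1800 - 1800 * ζ - 1800 * ζ ^ 2 - 1800 * ζ ^ 3) * a ^ 2 * b ^ 8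
      + (900 * ζ ^ 2) * a * b ^ 9
      + (75) * b ^ 10

/-- `125 * Y`-coordinate form of the universal 5-torsion point with label `(3, 4)`. -/
def Y_3_4 (ζ a b : R) : R :=
  (-13500 * ζ) * a ^ 13 * b ^ 2
      + (13500 + 13500 * ζ + 13500 * ζ ^ 2 + 13500 * ζ ^ 3) * a ^ 12 * b ^ 3
      + (-54000 * ζ ^ 2) * a ^ 11 * b ^ 4
      + (-67500 * ζ ^ 3) * a ^ 9 * b ^ 6
      + (-81000 * ζ) * a ^ 8 * b ^ 7
      + (283500 + 283500 * ζ + 283500 * ζ ^ 2 + 283500 * ζ ^ 3) * a ^ 7 * b ^ 8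
      + (-391500 * ζ ^ 2) * a ^ 6 * b ^ 9
      + (-337500) * a ^ 5 * b ^ 10
      + (-202500 * ζ ^ 3) * a ^ 4 * b ^ 11
      + (-121500 * ζ) * a ^ 3 * b ^ 12
      + (54000 + 54000 * ζ + 54000 * ζ ^ 2 + 54000 * ζ ^ 3) * a ^ 2 * b ^ 13
      + (-13500 * ζ ^ 2) * a * b ^ 14

/-- `25 * X`-coordinate form of the universal 5-torsion point with label `(4, 0)`. -/
def X_4_0 (ζ a b : R) : R :=
  (-465 - 180 * ζ ^ 2 - 180 * ζ ^ 3) * a ^ 10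
      + (-990 - 1980 * ζ ^ 2 - 1980 * ζ ^ 3) * a ^ 5 * b ^ 5
      + (-285 + 180 * ζ ^ 2 + 180 * ζ ^ 3) * b ^ 10

/-- `125 * Y`-coordinate form of the universal 5-torsion point with label `(4, 0)`. -/
def Y_4_0 (ζ a b : R) : R :=
  (2700 + 5400 * ζ - 2700 * ζ ^ 2 + 8100 * ζ ^ 3) * a ^ 15
      + (24300 + 48600 * ζ - 37800 * ζ ^ 2 + 86400 * ζ ^ 3) * a ^ 10 * b ^ 5
      + (-62100 - 124200 * ζ - 86400 * ζ ^ 2 - 37800 * ζ ^ 3) * a ^ 5 * b ^ 10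
      + (5400 + 10800 * ζ + 8100 * ζ ^ 2 + 2700 * ζ ^ 3) * b ^ 15

/-- `25 * X`-coordinate form of the universal 5-torsion point with label `(4, 1)`. -/
def X_4_1 (ζ a b : R) : R :=
  (75) * a ^ 10
      + (900 * ζ ^ 2) * a ^ 8 * b ^ 2
      + (-900 * ζ ^ 3) * a ^ 7 * b ^ 3
      + (-1800 - 1800 * ζ - 1800 * ζ ^ 2 - 1800 * ζ ^ 3) * a ^ 6 * b ^ 4
      + (2250) * a ^ 5 * b ^ 5
      + (4500 * ζ) * a ^ 4 * b ^ 6
      + (2700 * ζ ^ 2) * a ^ 3 * b ^ 7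
      + (1800 * ζ ^ 3) * a ^ 2 * b ^ 8
      + (-900 - 900 * ζ - 900 * ζ ^ 2 - 900 * ζ ^ 3) * a * b ^ 9
      + (75) * b ^ 10

/-- `125 * Y`-coordinate form of the universal 5-torsion point with label `(4, 1)`. -/
def Y_4_1 (ζ a b : R) : R :=
  (13500 * ζ ^ 2) * a ^ 13 * b ^ 2
      + (13500 * ζ ^ 3) * a ^ 12 * b ^ 3
      + (-54000 - 54000 * ζ - 54000 * ζ ^ 2 - 54000 * ζ ^ 3) * a ^ 11 * b ^ 4
      + (67500 * ζ) * a ^ 9 * b ^ 6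
      + (81000 * ζ ^ 2) * a ^ 8 * b ^ 7
      + (283500 * ζ ^ 3) * a ^ 7 * b ^ 8
      + (-391500 - 391500 * ζ - 391500 * ζ ^ 2 - 391500 * ζ ^ 3) * a ^ 6 * b ^ 9
      + (337500) * a ^ 5 * b ^ 10
      + (202500 * ζ) * a ^ 4 * b ^ 11
      + (121500 * ζ ^ 2) * a ^ 3 * b ^ 12
      + (54000 * ζ ^ 3) * a ^ 2 * b ^ 13
      + (-13500 - 13500 * ζ - 13500 * ζ ^ 2 - 13500 * ζ ^ 3) * a * b ^ 14

/-- `25 * X`-coordinate form of the universal 5-torsion point with label `(4, 2)`. -/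
def X_4_2 (ζ a b : R) : R :=
  (75) * a ^ 10
      + (-900 * ζ ^ 3) * a ^ 9 * b
      + (1800 * ζ) * a ^ 8 * b ^ 2
      + (2700 + 2700 * ζ + 2700 * ζ ^ 2 + 2700 * ζ ^ 3) * a ^ 7 * b ^ 3
      + (4500 * ζ ^ 2) * a ^ 6 * b ^ 4
      + (-2250) * a ^ 5 * b ^ 5
      + (1800 * ζ ^ 3) * a ^ 4 * b ^ 6
      + (900 * ζ) * a ^ 3 * b ^ 7
      + (-900 - 900 * ζ - 900 * ζ ^ 2 - 900 * ζ ^ 3) * a ^ 2 * b ^ 8
      + (75) * b ^ 10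

/-- `125 * Y`-coordinate form of the universal 5-torsion point with label `(4, 2)`. -/
def Y_4_2 (ζ a b : R) : R :=
  (13500 * ζ ^ 3) * a ^ 14 * b
      + (-54000 * ζ) * a ^ 13 * b ^ 2
      + (-121500 - 121500 * ζ - 121500 * ζ ^ 2 - 121500 * ζ ^ 3) * a ^ 12 * b ^ 3
      + (-202500 * ζ ^ 2) * a ^ 11 * b ^ 4
      + (337500) * a ^ 10 * b ^ 5
      + (-391500 * ζ ^ 3) * a ^ 9 * b ^ 6
      + (283500 * ζ) * a ^ 8 * b ^ 7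
      + (81000 + 81000 * ζ + 81000 * ζ ^ 2 + 81000 * ζ ^ 3) * a ^ 7 * b ^ 8
      + (67500 * ζ ^ 2) * a ^ 6 * b ^ 9
      + (54000 * ζ ^ 3) * a ^ 4 * b ^ 11
      + (-13500 * ζ) * a ^ 3 * b ^ 12
      + (-13500 - 13500 * ζ - 13500 * ζ ^ 2 - 13500 * ζ ^ 3) * a ^ 2 * b ^ 13

/-- `25 * X`-coordinate form of the universal 5-torsion point with label `(4, 3)`. -/
def X_4_3 (ζ a b : R) : R :=
  (75) * a ^ 10
      + (-900 * ζ ^ 2) * a ^ 9 * b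
      + (-1800 - 1800 * ζ - 1800 * ζ ^ 2 - 1800 * ζ ^ 3) * a ^ 8 * b ^ 2
      + (-2700 * ζ) * a ^ 7 * b ^ 3
      + (4500 * ζ ^ 3) * a ^ 6 * b ^ 4
      + (-2250) * a ^ 5 * b ^ 5
      + (1800 * ζ ^ 2) * a ^ 4 * b ^ 6
      + (-900 - 900 * ζ - 900 * ζ ^ 2 - 900 * ζ ^ 3) * a ^ 3 * b ^ 7
      + (900 * ζ) * a ^ 2 * b ^ 8
      + (75) * b ^ 10

/-- `125 * Y`-coordinate form of the universal 5-torsion point with label `(4, 3)`. -/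
def Y_4_3 (ζ a b : R) : R :=
  (-13500 * ζ ^ 2) * a ^ 14 * b
      + (-54000 - 54000 * ζ - 54000 * ζ ^ 2 - 54000 * ζ ^ 3) * a ^ 13 * b ^ 2
      + (-121500 * ζ) * a ^ 12 * b ^ 3
      + (202500 * ζ ^ 3) * a ^ 11 * b ^ 4
      + (-337500) * a ^ 10 * b ^ 5
      + (391500 * ζ ^ 2) * a ^ 9 * b ^ 6
      + (283500 + 283500 * ζ + 283500 * ζ ^ 2 + 283500 * ζ ^ 3) * a ^ 8 * b ^ 7
      + (81000 * ζ) * a ^ 7 * b ^ 8
      + (-67500 * ζ ^ 3) * a ^ 6 * b ^ 9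
      + (-54000 * ζ ^ 2) * a ^ 4 * b ^ 11
      + (-13500 - 13500 * ζ - 13500 * ζ ^ 2 - 13500 * ζ ^ 3) * a ^ 3 * b ^ 12
      + (-13500 * ζ) * a ^ 2 * b ^ 13

/-- `25 * X`-coordinate form of the universal 5-torsion point with label `(4, 4)`. -/
def X_4_4 (ζ a b : R) : R :=
  (75) * a ^ 10
      + (900 * ζ ^ 3) * a ^ 8 * b ^ 2
      + (-900 * ζ ^ 2) * a ^ 7 * b ^ 3
      + (1800 * ζ) * a ^ 6 * b ^ 4
      + (2250) * a ^ 5 * b ^ 5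
      + (-4500 - 4500 * ζ - 4500 * ζ ^ 2 - 4500 * ζ ^ 3) * a ^ 4 * b ^ 6
      + (2700 * ζ ^ 3) * a ^ 3 * b ^ 7
      + (1800 * ζ ^ 2) * a ^ 2 * b ^ 8
      + (900 * ζ) * a * b ^ 9
      + (75) * b ^ 10

/-- `125 * Y`-coordinate form of the universal 5-torsion point with label `(4, 4)`. -/
def Y_4_4 (ζ a b : R) : R :=
  (-13500 * ζ ^ 3) * a ^ 13 * b ^ 2
      + (-13500 * ζ ^ 2) * a ^ 12 * b ^ 3
      + (-54000 * ζ) * a ^ 11 * b ^ 4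
      + (67500 + 67500 * ζ + 67500 * ζ ^ 2 + 67500 * ζ ^ 3) * a ^ 9 * b ^ 6
      + (-81000 * ζ ^ 3) * a ^ 8 * b ^ 7
      + (-283500 * ζ ^ 2) * a ^ 7 * b ^ 8
      + (-391500 * ζ) * a ^ 6 * b ^ 9
      + (-337500) * a ^ 5 * b ^ 10
      + (202500 + 202500 * ζ + 202500 * ζ ^ 2 + 202500 * ζ ^ 3) * a ^ 4 * b ^ 11
      + (-121500 * ζ ^ 3) * a ^ 3 * b ^ 12
      + (-54000 * ζ ^ 2) * a ^ 2 * b ^ 13
      + (-13500 * ζ) * a * b ^ 14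

end Fermat.Agent.X5.Univ
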