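import Fermat.Agent.X5.Univ.Forms

/-! GENERATED by gen_univ.py: on-curve, doubling, negation and row/column chord identities -/

set_option autoImplicit false
set_option linter.unusedVariables false
set_option linter.style.longLine false

namespace Fermat.Agent.X5.Univ

variable {R : Type*} [CommRing R]

theorem oncurve_0_1 (ζ a b : R) (hζ : ζ ^ 4 + ζ ^ 3 + ζ ^ 2 + ζ + 1 = 0) :
    (Y_0_1 ζ a b) ^ 2 = (X_0_1 ζ a b) ^ 3 + 16875 * kH a b * (X_0_1 ζ a b) + 843750 * kT a b := by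
  unfold X_0_1 Y_0_1 kH kT
  ring

theorem dbl1_01 (ζ a b : R) (hζ : ζ ^ 4 + ζ ^ 3 + ζ ^ 2 + ζ + 1 = 0) :
    (3 * (X_0_1 ζ a b) ^ 2 + 16875 * kH a b) ^ 2 = (2 * (X_0_1 ζ a b) + X_0_2 ζ a b) * (2 * (Y_0_1 ζ a b)) ^ 2 := by
  unfold X_0_1 X_0_2 Y_0_1 kH
  ring

theorem dbl2_01 (ζ a b : R) (hζ : ζ ^ 4 + ζ ^ 3 + ζ ^ 2 + ζ + 1 = 0) :
    (Y_0_2 ζ a b + Y_0_1 ζ a b) * (2 * (Y_0_1 ζ a b)) + (3 * (X_0_1 ζ a b) ^ 2 + 16875 * kH a b) * (X_0_2 ζ a b - X_0_1 ζ a b) = 0 := by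
  unfold X_0_1 X_0_2 Y_0_2 Y_0_1 kH
  ring

theorem negX_01 (ζ a b : R) (hζ : ζ ^ 4 + ζ ^ 3 + ζ ^ 2 + ζ + 1 = 0) :
    X_0_4 ζ a b = X_0_1 ζ a b := by
  unfold X_0_1 X_0_4
  ring

theorem negY_01 (ζ a b : R) (hζ : ζ ^ 4 + ζ ^ 3 + ζ ^ 2 + ζ + 1 = 0) :
    Y_0_4 ζ a b = -(Y_0_1 ζ a b) := by
  unfold Y_0_1 Y_0_4
  ring

theorem ycert_01 (ζ a b : R) (hζ : ζ ^ 4 + ζ ^ 3 + ζ ^ 2 + ζ + 1 = 0) :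
    (Y_0_1 ζ a b) * ((1) * a ^ 9
      + (-1) * a ^ 8 * b
      + (-3) * a ^ 7 * b ^ 2
      + (7) * a ^ 6 * b ^ 3
      + (-7) * a ^ 4 * b ^ 5
      + (7) * a ^ 3 * b ^ 6
      + (-4) * a ^ 2 * b ^ 7
      + (1) * a * b ^ 8) = 13500 * kf a b ^ 2 := by
  unfold Y_0_1 kf
  ring

theorem oncurve_1_0 (ζ a b : R) (hζ : ζ ^ 4 + ζ ^ 3 + ζ ^ 2 + ζ + 1 = 0) :
    (Y_1_0 ζ a b) ^ 2 = (X_1_0 ζ a b) ^ 3 + 16875 * kH a b * (X_1_0 ζ a b) + 843750 * kT a b := by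
  unfold X_1_0 Y_1_0 kH kT
  linear_combination ((99144000 - 69984000 * ζ + 99144000 * ζ ^ 2 + 11664000 * ζ ^ 4 + 5832000 * ζ ^ 5) * a ^ 30
      + (2105352000 - 1580472000 * ζ + 2105352000 * ζ ^ 2 + 384912000 * ζ ^ 4 + 192456000 * ζ ^ 5) * a ^ 25 * b ^ 5
      + (10176840000 - 9156240000 * ζ + 10176840000 * ζ ^ 2 + 4199040000 * ζ ^ 4 + 2099520000 * ζ ^ 5) * a ^ 20 * b ^ 10
      + (-10176840000 - 1778760000 * ζ - 10176840000 * ζ ^ 2 + 14754960000 * ζ ^ 4 + 7377480000 * ζ ^ 5) * a ^ 15 * b ^ 15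
      + (7319160000 + 9156240000 * ζ + 7319160000 * ζ ^ 2 - 4199040000 * ζ ^ 4 - 2099520000 * ζ ^ 5) * a ^ 10 * b ^ 20
      + (-1102248000 - 1580472000 * ζ - 1102248000 * ζ ^ 2 + 384912000 * ζ ^ 4 + 192456000 * ζ ^ 5) * a ^ 5 * b ^ 25
      + (46656000 + 69984000 * ζ + 46656000 * ζ ^ 2 - 11664000 * ζ ^ 4 - 5832000 * ζ ^ 5) * b ^ 30) * hζ

theorem dbl1_10 (ζ a b : R) (hζ : ζ ^ 4 + ζ ^ 3 + ζ ^ 2 + ζ + 1 = 0) :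
    (3 * (X_1_0 ζ a b) ^ 2 + 16875 * kH a b) ^ 2 = (2 * (X_1_0 ζ a b) + X_2_0 ζ a b) * (2 * (Y_1_0 ζ a b)) ^ 2 := by
  unfold X_1_0 X_2_0 Y_1_0 kH
  linear_combination ((434600640000 - 292883040000 * ζ + 568969920000 * ζ ^ 2 + 20995200000 * ζ ^ 3 + 135419040000 * ζ ^ 4 + 125971200000 * ζ ^ 5 + 18895680000 * ζ ^ 6 + 28343520000 * ζ ^ 7 + 9447840000 * ζ ^ 8) * a ^ 40
      + (9018488160000 - 6352097760000 * ζ + 13434828480000 * ζ ^ 2 + 608860800000 * ζ ^ 3 + 4488773760000 * ζ ^ 4 + 4125556800000 * ζ ^ 5 + 831409920000 * ζ ^ 6 + 1247114880000 * ζ ^ 7 + 415704960000 * ζ ^ 8) * a ^ 35 * b ^ 5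
      + (39663082080000 - 32503718880000 * ζ + 87417714240000 * ζ ^ 2 + 4870886400000 * ζ ^ 3 + 49588562880000 * ζ ^ 4 + 44394350400000 * ζ ^ 5 + 13642680960000 * ζ ^ 6 + 20464021440000 * ζ ^ 7 + 6821340480000 * ζ ^ 8) * a ^ 30 * b ^ 10
      + (-76513857120000 + 24624220320000 * ζ + 86068772640000 * ζ ^ 2 - 902793600000 * ζ ^ 3 + 184409239680000 * ζ ^ 4 + 150787526400000 * ζ ^ 5 + 98106370560000 * ζ ^ 6 + 147159555840000 * ζ ^ 7 + 49053185280000 * ζ ^ 8) * a ^ 25 * b ^ 15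
      + (2209744800000 + 34741807200000 * ζ - 79319865600000 * ζ ^ 2 - 83560896000000 * ζ ^ 3 + 41103352800000 * ζ ^ 4 - 54954936000000 * ζ ^ 5 + 249328497600000 * ζ ^ 6 + 373992746400000 * ζ ^ 7 + 124664248800000 * ζ ^ 8) * a ^ 20 * b ^ 20
      + (23500977120000 - 20792596320000 * ζ - 2822804640000 * ζ ^ 2 + 137161641600000 * ζ ^ 3 + 224367304320000 * ζ ^ 4 + 121730169600000 * ζ ^ 5 - 98106370560000 * ζ ^ 6 - 147159555840000 * ζ ^ 7 - 49053185280000 * ζ ^ 8) * a ^ 15 * b ^ 25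
      + (17093242080000 + 41058213120000 * ζ + 26951538240000 * ζ ^ 2 - 33025449600000 * ζ ^ 3 - 64100445120000 * ζ ^ 4 - 31398321600000 * ζ ^ 5 + 13642680960000 * ζ ^ 6 + 20464021440000 * ζ ^ 7 + 6821340480000 * ζ ^ 8) * a ^ 10 * b ^ 30
      + (-3638468160000 - 7006098240000 * ζ - 4590600480000 * ζ ^ 2 + 2855347200000 * ζ ^ 3 + 5903850240000 * ζ ^ 4 + 2802859200000 * ζ ^ 5 - 831409920000 * ζ ^ 6 - 1247114880000 * ζ ^ 7 - 415704960000 * ζ ^ 8) * a ^ 5 * b ^ 35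
      + (172160640000 + 310728960000 * ζ + 201553920000 * ζ ^ 2 - 83980800000 * ζ ^ 3 - 179508960000 * ζ ^ 4 - 83980800000 * ζ ^ 5 + 18895680000 * ζ ^ 6 + 28343520000 * ζ ^ 7 + 9447840000 * ζ ^ 8) * b ^ 40) * hζ

theorem dbl2_10 (ζ a b : R) (hζ : ζ ^ 4 + ζ ^ 3 + ζ ^ 2 + ζ + 1 = 0) :
    (Y_2_0 ζ a b + Y_1_0 ζ a b) * (2 * (Y_1_0 ζ a b)) + (3 * (X_1_0 ζ a b) ^ 2 + 16875 * kH a b) * (X_2_0 ζ a b - X_1_0 ζ a b) = 0 := by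
  unfold X_1_0 X_2_0 Y_2_0 Y_1_0 kH
  linear_combination ((157464000 + 17496000 * ζ + 303264000 * ζ ^ 2 + 69984000 * ζ ^ 4 + 34992000 * ζ ^ 5) * a ^ 30
      + (3300912000 + 139968000 * ζ + 6508512000 * ζ ^ 2 + 2309472000 * ζ ^ 4 + 1154736000 * ζ ^ 5) * a ^ 25 * b ^ 5
      + (15134040000 - 3178440000 * ζ + 32630040000 * ζ ^ 2 + 25194240000 * ζ ^ 4 + 12597120000 * ζ ^ 5) * a ^ 20 * b ^ 10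
      + (-23153040000 - 26710560000 * ζ - 23153040000 * ζ ^ 2 + 88529760000 * ζ ^ 4 + 44264880000 * ζ ^ 5) * a ^ 15 * b ^ 15
      + (2361960000 + 20674440000 * ζ + 19857960000 * ζ ^ 2 - 25194240000 * ζ ^ 4 - 12597120000 * ζ ^ 5) * a ^ 10 * b ^ 20
      + (93312000 - 3067632000 * ζ - 3114288000 * ζ ^ 2 + 2309472000 * ζ ^ 4 + 1154736000 * ζ ^ 5) * a ^ 5 * b ^ 25
      + (-11664000 + 128304000 * ζ + 134136000 * ζ ^ 2 - 69984000 * ζ ^ 4 - 34992000 * ζ ^ 5) * b ^ 30) * hζ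

theorem negX_10 (ζ a b : R) (hζ : ζ ^ 4 + ζ ^ 3 + ζ ^ 2 + ζ + 1 = 0) :
    X_4_0 ζ a b = X_1_0 ζ a b := by
  unfold X_1_0 X_4_0
  ring

theorem negY_10 (ζ a b : R) (hζ : ζ ^ 4 + ζ ^ 3 + ζ ^ 2 + ζ + 1 = 0) :
    Y_4_0 ζ a b = -(Y_1_0 ζ a b) := by
  unfold Y_1_0 Y_4_0
  ring

theorem ycert_10 (ζ a b : R) (hζ : ζ ^ 4 + ζ ^ 3 + ζ ^ 2 + ζ + 1 = 0) :
    (Y_1_0 ζ a b) * ((-4 - 8 * ζ - 7 * ζ ^ 2 - 1 * ζ ^ 3) * a ^ 7 * b ^ 2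
      + (3 + 6 * ζ - 1 * ζ ^ 2 + 7 * ζ ^ 3) * a ^ 2 * b ^ 7) = 13500 * kf a b ^ 2 := by
  unfold Y_1_0 kf
  linear_combination ((-2700 + 45900 * ζ + 8100 * ζ ^ 2) * a ^ 22 * b ^ 2
      + (-207900 + 564300 * ζ + 29700 * ζ ^ 2) * a ^ 17 * b ^ 7
      + (-1927800 + 642600 * ζ - 642600 * ζ ^ 2) * a ^ 12 * b ^ 12
      + (504900 + 326700 * ζ + 267300 * ζ ^ 2) * a ^ 7 * b ^ 17
      + (-29700 - 35100 * ζ - 18900 * ζ ^ 2) * a ^ 2 * b ^ 22) * hζ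

theorem chord1_02_01 (ζ a b : R) (hζ : ζ ^ 4 + ζ ^ 3 + ζ ^ 2 + ζ + 1 = 0) :
    (Y_0_2 ζ a b - Y_0_1 ζ a b) ^ 2 = (X_0_2 ζ a b + X_0_1 ζ a b + X_0_3 ζ a b) * (X_0_2 ζ a b - X_0_1 ζ a b) ^ 2 := by
  unfold X_0_2 X_0_1 X_0_3 Y_0_2 Y_0_1
  ring

theorem chord2_02_01 (ζ a b : R) (hζ : ζ ^ 4 + ζ ^ 3 + ζ ^ 2 + ζ + 1 = 0) :
    (Y_0_3 ζ a b + Y_0_2 ζ a b) * (X_0_2 ζ a b - X_0_1 ζ a b) + (Y_0_2 ζ a b - Y_0_1 ζ a b) * (X_0_3 ζ a b - X_0_2 ζ a b) = 0 := by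
  unfold X_0_2 X_0_1 X_0_3 Y_0_3 Y_0_2 Y_0_1
  ring

theorem necert_02_01 (ζ a b : R) (hζ : ζ ^ 4 + ζ ^ 3 + ζ ^ 2 + ζ + 1 = 0) :
    (X_0_2 ζ a b - X_0_1 ζ a b) * ((-1) * a ^ 13 * b
      + (-1) * a ^ 12 * b ^ 2
      + (1) * a ^ 11 * b ^ 3
      + (-11) * a ^ 8 * b ^ 6
      + (-11) * a ^ 7 * b ^ 7
      + (11) * a ^ 6 * b ^ 8
      + (1) * a ^ 3 * b ^ 11
      + (1) * a ^ 2 * b ^ 12
      + (-1) * a * b ^ 13) = 900 * kf a b ^ 2 := by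
  unfold X_0_2 X_0_1 kf
  ring

theorem chord1_03_01 (ζ a b : R) (hζ : ζ ^ 4 + ζ ^ 3 + ζ ^ 2 + ζ + 1 = 0) :
    (Y_0_3 ζ a b - Y_0_1 ζ a b) ^ 2 = (X_0_3 ζ a b + X_0_1 ζ a b + X_0_4 ζ a b) * (X_0_3 ζ a b - X_0_1 ζ a b) ^ 2 := by
  unfold X_0_3 X_0_1 X_0_4 Y_0_3 Y_0_1
  ring

theorem chord2_03_01 (ζ a b : R) (hζ : ζ ^ 4 + ζ ^ 3 + ζ ^ 2 + ζ + 1 = 0) :
    (Y_0_4 ζ a b + Y_0_3 ζ a b) * (X_0_3 ζ a b - X_0_1 ζ a b) + (Y_0_3 ζ a b - Y_0_1 ζ a b) * (X_0_4 ζ a b - X_0_3 ζ a b) = 0 := by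
  unfold X_0_3 X_0_1 X_0_4 Y_0_4 Y_0_3 Y_0_1
  ring

theorem necert_03_01 (ζ a b : R) (hζ : ζ ^ 4 + ζ ^ 3 + ζ ^ 2 + ζ + 1 = 0) :
    (X_0_3 ζ a b - X_0_1 ζ a b) * ((-1) * a ^ 13 * b
      + (-1) * a ^ 12 * b ^ 2
      + (1) * a ^ 11 * b ^ 3
      + (-11) * a ^ 8 * b ^ 6
      + (-11) * a ^ 7 * b ^ 7
      + (11) * a ^ 6 * b ^ 8
      + (1) * a ^ 3 * b ^ 11
      + (1) * a ^ 2 * b ^ 12
      + (-1) * a * b ^ 13) = 900 * kf a b ^ 2 := by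
  unfold X_0_3 X_0_1 kf
  ring

theorem chord1_20_10 (ζ a b : R) (hζ : ζ ^ 4 + ζ ^ 3 + ζ ^ 2 + ζ + 1 = 0) :
    (Y_2_0 ζ a b - Y_1_0 ζ a b) ^ 2 = (X_2_0 ζ a b + X_1_0 ζ a b + X_3_0 ζ a b) * (X_2_0 ζ a b - X_1_0 ζ a b) ^ 2 := by
  unfold X_2_0 X_1_0 X_3_0 Y_2_0 Y_1_0
  linear_combination ((40824000 - 11664000 * ζ + 186624000 * ζ ^ 2 - 46656000 * ζ ^ 4 - 23328000 * ζ ^ 5) * a ^ 30
      + (909792000 - 93312000 * ζ + 4117392000 * ζ ^ 2 - 1539648000 * ζ ^ 4 - 769824000 * ζ ^ 5) * a ^ 25 * b ^ 5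
      + (5219640000 + 2361960000 * ζ + 22715640000 * ζ ^ 2 - 16796160000 * ζ ^ 4 - 8398080000 * ζ ^ 5) * a ^ 20 * b ^ 10
      + (2799360000 + 23153040000 * ζ + 2799360000 * ζ ^ 2 - 59019840000 * ζ ^ 4 - 29509920000 * ζ ^ 5) * a ^ 15 * b ^ 15
      + (12276360000 + 15134040000 * ζ + 29772360000 * ζ ^ 2 + 16796160000 * ζ ^ 4 + 8398080000 * ζ ^ 5) * a ^ 10 * b ^ 20
      + (-2297808000 - 3300912000 * ζ - 5505408000 * ζ ^ 2 - 1539648000 * ζ ^ 4 - 769824000 * ζ ^ 5) * a ^ 5 * b ^ 25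
      + (104976000 + 157464000 * ζ + 250776000 * ζ ^ 2 + 46656000 * ζ ^ 4 + 23328000 * ζ ^ 5) * b ^ 30) * hζ

theorem chord2_20_10 (ζ a b : R) (hζ : ζ ^ 4 + ζ ^ 3 + ζ ^ 2 + ζ + 1 = 0) :
    (Y_3_0 ζ a b + Y_2_0 ζ a b) * (X_2_0 ζ a b - X_1_0 ζ a b) + (Y_2_0 ζ a b - Y_1_0 ζ a b) * (X_3_0 ζ a b - X_2_0 ζ a b) = 0 := by
  unfold X_2_0 X_1_0 X_3_0 Y_3_0 Y_2_0 Y_1_0
  ring

theorem necert_20_10 (ζ a b : R) (hζ : ζ ^ 4 + ζ ^ 3 + ζ ^ 2 + ζ + 1 = 0) :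
    (X_2_0 ζ a b - X_1_0 ζ a b) * ((1 + 2 * ζ ^ 2 + 2 * ζ ^ 3) * a ^ 12 * b ^ 2
      + (11 + 22 * ζ ^ 2 + 22 * ζ ^ 3) * a ^ 7 * b ^ 7
      + (-1 - 2 * ζ ^ 2 - 2 * ζ ^ 3) * a ^ 2 * b ^ 12) = 900 * kf a b ^ 2 := by
  unfold X_2_0 X_1_0 kf
  linear_combination ((-720 + 720 * ζ + 720 * ζ ^ 2) * a ^ 22 * b ^ 2
      + (-15840 + 15840 * ζ + 15840 * ζ ^ 2) * a ^ 17 * b ^ 7
      + (-85680 + 85680 * ζ + 85680 * ζ ^ 2) * a ^ 12 * b ^ 12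
      + (15840 - 15840 * ζ - 15840 * ζ ^ 2) * a ^ 7 * b ^ 17
      + (-720 + 720 * ζ + 720 * ζ ^ 2) * a ^ 2 * b ^ 22) * hζ

theorem chord1_30_10 (ζ a b : R) (hζ : ζ ^ 4 + ζ ^ 3 + ζ ^ 2 + ζ + 1 = 0) :
    (Y_3_0 ζ a b - Y_1_0 ζ a b) ^ 2 = (X_3_0 ζ a b + X_1_0 ζ a b + X_4_0 ζ a b) * (X_3_0 ζ a b - X_1_0 ζ a b) ^ 2 := by
  unfold X_3_0 X_1_0 X_4_0 Y_3_0 Y_1_0
  linear_combination ((104976000 + 157464000 * ζ + 250776000 * ζ ^ 2 + 46656000 * ζ ^ 4 + 23328000 * ζ ^ 5) * a ^ 30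
      + (2297808000 + 3300912000 * ζ + 5505408000 * ζ ^ 2 + 1539648000 * ζ ^ 4 + 769824000 * ζ ^ 5) * a ^ 25 * b ^ 5
      + (12276360000 + 15134040000 * ζ + 29772360000 * ζ ^ 2 + 16796160000 * ζ ^ 4 + 8398080000 * ζ ^ 5) * a ^ 20 * b ^ 10
      + (-2799360000 - 23153040000 * ζ - 2799360000 * ζ ^ 2 + 59019840000 * ζ ^ 4 + 29509920000 * ζ ^ 5) * a ^ 15 * b ^ 15
      + (5219640000 + 2361960000 * ζ + 22715640000 * ζ ^ 2 - 16796160000 * ζ ^ 4 - 8398080000 * ζ ^ 5) * a ^ 10 * b ^ 20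
      + (-909792000 + 93312000 * ζ - 4117392000 * ζ ^ 2 + 1539648000 * ζ ^ 4 + 769824000 * ζ ^ 5) * a ^ 5 * b ^ 25
      + (40824000 - 11664000 * ζ + 186624000 * ζ ^ 2 - 46656000 * ζ ^ 4 - 23328000 * ζ ^ 5) * b ^ 30) * hζ

theorem chord2_30_10 (ζ a b : R) (hζ : ζ ^ 4 + ζ ^ 3 + ζ ^ 2 + ζ + 1 = 0) :
    (Y_4_0 ζ a b + Y_3_0 ζ a b) * (X_3_0 ζ a b - X_1_0 ζ a b) + (Y_3_0 ζ a b - Y_1_0 ζ a b) * (X_4_0 ζ a b - X_3_0 ζ a b) = 0 := by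
  unfold X_3_0 X_1_0 X_4_0 Y_4_0 Y_3_0 Y_1_0
  ring

theorem necert_30_10 (ζ a b : R) (hζ : ζ ^ 4 + ζ ^ 3 + ζ ^ 2 + ζ + 1 = 0) :
    (X_3_0 ζ a b - X_1_0 ζ a b) * ((1 + 2 * ζ ^ 2 + 2 * ζ ^ 3) * a ^ 12 * b ^ 2
      + (11 + 22 * ζ ^ 2 + 22 * ζ ^ 3) * a ^ 7 * b ^ 7
      + (-1 - 2 * ζ ^ 2 - 2 * ζ ^ 3) * a ^ 2 * b ^ 12) = 900 * kf a b ^ 2 := by
  unfold X_3_0 X_1_0 kf
  linear_combination ((-720 + 720 * ζ + 720 * ζ ^ 2) * a ^ 22 * b ^ 2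
      + (-15840 + 15840 * ζ + 15840 * ζ ^ 2) * a ^ 17 * b ^ 7
      + (-85680 + 85680 * ζ + 85680 * ζ ^ 2) * a ^ 12 * b ^ 12
      + (15840 - 15840 * ζ - 15840 * ζ ^ 2) * a ^ 7 * b ^ 17
      + (-720 + 720 * ζ + 720 * ζ ^ 2) * a ^ 2 * b ^ 22) * hζ

end Fermat.Agent.X5.Univ
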