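import Fermat.Agent.X5.Univ.Torsion

/-! GENERATED by gen_map.py: the coordinate forms commute with ring homomorphisms. -/

set_option autoImplicit false
set_option linter.unusedSimpArgs false
set_option linter.style.longLine false

namespace Fermat.Agent.X5.Univ

open Fermat.Agent.X5

variable {R S : Type*} [CommRing R] [CommRing S] (φ : R →+* S)

theorem map_X_0_1 (ζ a b : R) : φ (X_0_1 ζ a b) = X_0_1 (φ ζ) (φ a) (φ b) := by
  simp only [X_0_1, map_add, map_sub, map_mul, map_pow, map_neg, map_ofNat]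

theorem map_X_0_2 (ζ a b : R) : φ (X_0_2 ζ a b) = X_0_2 (φ ζ) (φ a) (φ b) := by
  simp only [X_0_2, map_add, map_sub, map_mul, map_pow, map_neg, map_ofNat]

theorem map_X_0_3 (ζ a b : R) : φ (X_0_3 ζ a b) = X_0_3 (φ ζ) (φ a) (φ b) := by
  simp only [X_0_3, map_add, map_sub, map_mul, map_pow, map_neg, map_ofNat]

theorem map_X_0_4 (ζ a b : R) : φ (X_0_4 ζ a b) = X_0_4 (φ ζ) (φ a) (φ b) := by
  simp only [X_0_4, map_add, map_sub, map_mul, map_pow, map_neg, map_ofNat]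

theorem map_X_1_0 (ζ a b : R) : φ (X_1_0 ζ a b) = X_1_0 (φ ζ) (φ a) (φ b) := by
  simp only [X_1_0, map_add, map_sub, map_mul, map_pow, map_neg, map_ofNat]

theorem map_X_1_1 (ζ a b : R) : φ (X_1_1 ζ a b) = X_1_1 (φ ζ) (φ a) (φ b) := by
  simp only [X_1_1, map_add, map_sub, map_mul, map_pow, map_neg, map_ofNat]

theorem map_X_1_2 (ζ a b : R) : φ (X_1_2 ζ a b) = X_1_2 (φ ζ) (φ a) (φ b) := by
  simp only [X_1_2, map_add, map_sub, map_mul, map_pow, map_neg, map_ofNat]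

theorem map_X_1_3 (ζ a b : R) : φ (X_1_3 ζ a b) = X_1_3 (φ ζ) (φ a) (φ b) := by
  simp only [X_1_3, map_add, map_sub, map_mul, map_pow, map_neg, map_ofNat]

theorem map_X_1_4 (ζ a b : R) : φ (X_1_4 ζ a b) = X_1_4 (φ ζ) (φ a) (φ b) := by
  simp only [X_1_4, map_add, map_sub, map_mul, map_pow, map_neg, map_ofNat]

theorem map_X_2_0 (ζ a b : R) : φ (X_2_0 ζ a b) = X_2_0 (φ ζ) (φ a) (φ b) := by
  simp only [X_2_0, map_add, map_sub, map_mul, map_pow, map_neg, map_ofNat]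

theorem map_X_2_1 (ζ a b : R) : φ (X_2_1 ζ a b) = X_2_1 (φ ζ) (φ a) (φ b) := by
  simp only [X_2_1, map_add, map_sub, map_mul, map_pow, map_neg, map_ofNat]

theorem map_X_2_2 (ζ a b : R) : φ (X_2_2 ζ a b) = X_2_2 (φ ζ) (φ a) (φ b) := by
  simp only [X_2_2, map_add, map_sub, map_mul, map_pow, map_neg, map_ofNat]

theorem map_X_2_3 (ζ a b : R) : φ (X_2_3 ζ a b) = X_2_3 (φ ζ) (φ a) (φ b) := by
  simp only [X_2_3, map_add, map_sub, map_mul, map_pow, map_neg, map_ofNat]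

theorem map_X_2_4 (ζ a b : R) : φ (X_2_4 ζ a b) = X_2_4 (φ ζ) (φ a) (φ b) := by
  simp only [X_2_4, map_add, map_sub, map_mul, map_pow, map_neg, map_ofNat]

theorem map_X_3_0 (ζ a b : R) : φ (X_3_0 ζ a b) = X_3_0 (φ ζ) (φ a) (φ b) := by
  simp only [X_3_0, map_add, map_sub, map_mul, map_pow, map_neg, map_ofNat]

theorem map_X_3_1 (ζ a b : R) : φ (X_3_1 ζ a b) = X_3_1 (φ ζ) (φ a) (φ b) := by
  simp only [X_3_1, map_add, map_sub, map_mul, map_pow, map_neg, map_ofNat]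

theorem map_X_3_2 (ζ a b : R) : φ (X_3_2 ζ a b) = X_3_2 (φ ζ) (φ a) (φ b) := by
  simp only [X_3_2, map_add, map_sub, map_mul, map_pow, map_neg, map_ofNat]

theorem map_X_3_3 (ζ a b : R) : φ (X_3_3 ζ a b) = X_3_3 (φ ζ) (φ a) (φ b) := by
  simp only [X_3_3, map_add, map_sub, map_mul, map_pow, map_neg, map_ofNat]

theorem map_X_3_4 (ζ a b : R) : φ (X_3_4 ζ a b) = X_3_4 (φ ζ) (φ a) (φ b) := by
  simp only [X_3_4, map_add, map_sub, map_mul, map_pow, map_neg, map_ofNat]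

theorem map_X_4_0 (ζ a b : R) : φ (X_4_0 ζ a b) = X_4_0 (φ ζ) (φ a) (φ b) := by
  simp only [X_4_0, map_add, map_sub, map_mul, map_pow, map_neg, map_ofNat]

theorem map_X_4_1 (ζ a b : R) : φ (X_4_1 ζ a b) = X_4_1 (φ ζ) (φ a) (φ b) := by
  simp only [X_4_1, map_add, map_sub, map_mul, map_pow, map_neg, map_ofNat]

theorem map_X_4_2 (ζ a b : R) : φ (X_4_2 ζ a b) = X_4_2 (φ ζ) (φ a) (φ b) := by
  simp only [X_4_2, map_add, map_sub, map_mul, map_pow, map_neg, map_ofNat]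

theorem map_X_4_3 (ζ a b : R) : φ (X_4_3 ζ a b) = X_4_3 (φ ζ) (φ a) (φ b) := by
  simp only [X_4_3, map_add, map_sub, map_mul, map_pow, map_neg, map_ofNat]

theorem map_X_4_4 (ζ a b : R) : φ (X_4_4 ζ a b) = X_4_4 (φ ζ) (φ a) (φ b) := by
  simp only [X_4_4, map_add, map_sub, map_mul, map_pow, map_neg, map_ofNat]

theorem map_Y_0_1 (ζ a b : R) : φ (Y_0_1 ζ a b) = Y_0_1 (φ ζ) (φ a) (φ b) := by
  simp only [Y_0_1, map_add, map_sub, map_mul, map_pow, map_neg, map_ofNat]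

theorem map_Y_0_2 (ζ a b : R) : φ (Y_0_2 ζ a b) = Y_0_2 (φ ζ) (φ a) (φ b) := by
  simp only [Y_0_2, map_add, map_sub, map_mul, map_pow, map_neg, map_ofNat]

theorem map_Y_0_3 (ζ a b : R) : φ (Y_0_3 ζ a b) = Y_0_3 (φ ζ) (φ a) (φ b) := by
  simp only [Y_0_3, map_add, map_sub, map_mul, map_pow, map_neg, map_ofNat]

theorem map_Y_0_4 (ζ a b : R) : φ (Y_0_4 ζ a b) = Y_0_4 (φ ζ) (φ a) (φ b) := by
  simp only [Y_0_4, map_add, map_sub, map_mul, map_pow, map_neg, map_ofNat]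

theorem map_Y_1_0 (ζ a b : R) : φ (Y_1_0 ζ a b) = Y_1_0 (φ ζ) (φ a) (φ b) := by
  simp only [Y_1_0, map_add, map_sub, map_mul, map_pow, map_neg, map_ofNat]

theorem map_Y_1_1 (ζ a b : R) : φ (Y_1_1 ζ a b) = Y_1_1 (φ ζ) (φ a) (φ b) := by
  simp only [Y_1_1, map_add, map_sub, map_mul, map_pow, map_neg, map_ofNat]

theorem map_Y_1_2 (ζ a b : R) : φ (Y_1_2 ζ a b) = Y_1_2 (φ ζ) (φ a) (φ b) := by
  simp only [Y_1_2, map_add, map_sub, map_mul, map_pow, map_neg, map_ofNat]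

theorem map_Y_1_3 (ζ a b : R) : φ (Y_1_3 ζ a b) = Y_1_3 (φ ζ) (φ a) (φ b) := by
  simp only [Y_1_3, map_add, map_sub, map_mul, map_pow, map_neg, map_ofNat]

theorem map_Y_1_4 (ζ a b : R) : φ (Y_1_4 ζ a b) = Y_1_4 (φ ζ) (φ a) (φ b) := by
  simp only [Y_1_4, map_add, map_sub, map_mul, map_pow, map_neg, map_ofNat]

theorem map_Y_2_0 (ζ a b : R) : φ (Y_2_0 ζ a b) = Y_2_0 (φ ζ) (φ a) (φ b) := by
  simp only [Y_2_0, map_add, map_sub, map_mul, map_pow, map_neg, map_ofNat]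

theorem map_Y_2_1 (ζ a b : R) : φ (Y_2_1 ζ a b) = Y_2_1 (φ ζ) (φ a) (φ b) := by
  simp only [Y_2_1, map_add, map_sub, map_mul, map_pow, map_neg, map_ofNat]

theorem map_Y_2_2 (ζ a b : R) : φ (Y_2_2 ζ a b) = Y_2_2 (φ ζ) (φ a) (φ b) := by
  simp only [Y_2_2, map_add, map_sub, map_mul, map_pow, map_neg, map_ofNat]

theorem map_Y_2_3 (ζ a b : R) : φ (Y_2_3 ζ a b) = Y_2_3 (φ ζ) (φ a) (φ b) := by
  simp only [Y_2_3, map_add, map_sub, map_mul, map_pow, map_neg, map_ofNat]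

theorem map_Y_2_4 (ζ a b : R) : φ (Y_2_4 ζ a b) = Y_2_4 (φ ζ) (φ a) (φ b) := by
  simp only [Y_2_4, map_add, map_sub, map_mul, map_pow, map_neg, map_ofNat]

theorem map_Y_3_0 (ζ a b : R) : φ (Y_3_0 ζ a b) = Y_3_0 (φ ζ) (φ a) (φ b) := by
  simp only [Y_3_0, map_add, map_sub, map_mul, map_pow, map_neg, map_ofNat]

theorem map_Y_3_1 (ζ a b : R) : φ (Y_3_1 ζ a b) = Y_3_1 (φ ζ) (φ a) (φ b) := by
  simp only [Y_3_1, map_add, map_sub, map_mul, map_pow, map_neg, map_ofNat]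

theorem map_Y_3_2 (ζ a b : R) : φ (Y_3_2 ζ a b) = Y_3_2 (φ ζ) (φ a) (φ b) := by
  simp only [Y_3_2, map_add, map_sub, map_mul, map_pow, map_neg, map_ofNat]

theorem map_Y_3_3 (ζ a b : R) : φ (Y_3_3 ζ a b) = Y_3_3 (φ ζ) (φ a) (φ b) := by
  simp only [Y_3_3, map_add, map_sub, map_mul, map_pow, map_neg, map_ofNat]

theorem map_Y_3_4 (ζ a b : R) : φ (Y_3_4 ζ a b) = Y_3_4 (φ ζ) (φ a) (φ b) := by
  simp only [Y_3_4, map_add, map_sub, map_mul, map_pow, map_neg, map_ofNat]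

theorem map_Y_4_0 (ζ a b : R) : φ (Y_4_0 ζ a b) = Y_4_0 (φ ζ) (φ a) (φ b) := by
  simp only [Y_4_0, map_add, map_sub, map_mul, map_pow, map_neg, map_ofNat]

theorem map_Y_4_1 (ζ a b : R) : φ (Y_4_1 ζ a b) = Y_4_1 (φ ζ) (φ a) (φ b) := by
  simp only [Y_4_1, map_add, map_sub, map_mul, map_pow, map_neg, map_ofNat]

theorem map_Y_4_2 (ζ a b : R) : φ (Y_4_2 ζ a b) = Y_4_2 (φ ζ) (φ a) (φ b) := by
  simp only [Y_4_2, map_add, map_sub, map_mul, map_pow, map_neg, map_ofNat]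

theorem map_Y_4_3 (ζ a b : R) : φ (Y_4_3 ζ a b) = Y_4_3 (φ ζ) (φ a) (φ b) := by
  simp only [Y_4_3, map_add, map_sub, map_mul, map_pow, map_neg, map_ofNat]

theorem map_Y_4_4 (ζ a b : R) : φ (Y_4_4 ζ a b) = Y_4_4 (φ ζ) (φ a) (φ b) := by
  simp only [Y_4_4, map_add, map_sub, map_mul, map_pow, map_neg, map_ofNat]

theorem map_XXn (ζ a b : R) (i j : ℕ) :
    φ (XXn ζ a b i j) = XXn (φ ζ) (φ a) (φ b) i j := by
  unfold XXn
  split <;> simp only [map_X_0_1, map_X_0_2, map_X_0_3, map_X_0_4, map_X_1_0, map_X_1_1, map_X_1_2, map_X_1_3, map_X_1_4, map_X_2_0, map_X_2_1, map_X_2_2, map_X_2_3, map_X_2_4, map_X_3_0, map_X_3_1, map_X_3_2, map_X_3_3, map_X_3_4, map_X_4_0, map_X_4_1, map_X_4_2, map_X_4_3, map_X_4_4, map_zero]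

theorem map_XX (ζ : R) (v : ZMod 5 × ZMod 5) (a b : R) :
    φ (XX ζ v a b) = XX (φ ζ) v (φ a) (φ b) := by
  unfold XX
  exact map_XXn φ ζ a b _ _

theorem map_YYn (ζ a b : R) (i j : ℕ) :
    φ (YYn ζ a b i j) = YYn (φ ζ) (φ a) (φ b) i j := by
  unfold YYn
  split <;> simp only [map_Y_0_1, map_Y_0_2, map_Y_0_3, map_Y_0_4, map_Y_1_0, map_Y_1_1, map_Y_1_2, map_Y_1_3, map_Y_1_4, map_Y_2_0, map_Y_2_1, map_Y_2_2, map_Y_2_3, map_Y_2_4, map_Y_3_0, map_Y_3_1, map_Y_3_2, map_Y_3_3, map_Y_3_4, map_Y_4_0, map_Y_4_1, map_Y_4_2, map_Y_4_3, map_Y_4_4, map_zero]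

theorem map_YY (ζ : R) (v : ZMod 5 × ZMod 5) (a b : R) :
    φ (YY ζ v a b) = YY (φ ζ) v (φ a) (φ b) := by
  unfold YY
  exact map_YYn φ ζ a b _ _

theorem map_kf (a b : R) : φ (kf a b) = kf (φ a) (φ b) := by
  simp only [kf, map_add, map_sub, map_mul, map_pow, map_ofNat]

theorem map_kH (a b : R) : φ (kH a b) = kH (φ a) (φ b) := by
  simp only [kH, map_add, map_sub, map_mul, map_pow, map_neg, map_ofNat]

theorem map_kT (a b : R) : φ (kT a b) = kT (φ a) (φ b) := by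
  simp only [kT, map_add, map_sub, map_mul, map_pow, map_ofNat]

theorem map_kfa (a b : R) : φ (kfa a b) = kfa (φ a) (φ b) := by
  simp only [kfa, map_add, map_sub, map_mul, map_pow, map_ofNat]

theorem map_kfb (a b : R) : φ (kfb a b) = kfb (φ a) (φ b) := by
  simp only [kfb, map_add, map_sub, map_mul, map_pow, map_ofNat]

theorem map_pa (a b t : R) : φ (pa a b t) = pa (φ a) (φ b) (φ t) := by
  simp only [pa, map_sub, map_mul, map_kfb]

theorem map_pb (a b t : R) : φ (pb a b t) = pb (φ a) (φ b) (φ t) := by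
  simp only [pb, map_add, map_mul, map_kfa]

end Fermat.Agent.X5.Univ
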