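import Mathlib

/-!
# Addition on short Weierstrass curves from polynomial certificates

For a Weierstrass curve with `a₁ = a₂ = a₃ = 0` over a field we give criteria, in terms of
denominator-free polynomial identities, for `P + Q = R`, `P + P = R` and `P + Q = 0`.
-/

set_option autoImplicit false

open WeierstrassCurve WeierstrassCurve.Affine

namespace Fermat.Agent.X5.Short

variable {F : Type*} [Field F] [DecidableEq F] {W : Affine F}

omit [DecidableEq F] in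
theorem some_congr {x y x' y' : F} (h : W.Nonsingular x y) (hx : x = x') (hy : y = y') :
    ∃ h' : W.Nonsingular x' y', Point.some x y h = Point.some x' y' h' := by
  subst hx; subst hy; exact ⟨h, rfl⟩

omit [DecidableEq F] in
theorem negY_eq (h1 : W.a₁ = 0) (h3 : W.a₃ = 0) (x y : F) : W.negY x y = -y := by
  simp [Affine.negY, h1, h3]

/-- chord addition from certificates. -/
theorem chord (h1 : W.a₁ = 0) (h2 : W.a₂ = 0) (h3 : W.a₃ = 0) {x₁ y₁ x₂ y₂ x₃ y₃ : F}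
    (hP : W.Nonsingular x₁ y₁) (hQ : W.Nonsingular x₂ y₂) (hx : x₁ ≠ x₂)
    (e1 : (y₁ - y₂) ^ 2 = (x₁ + x₂ + x₃) * (x₁ - x₂) ^ 2)
    (e2 : (y₃ + y₁) * (x₁ - x₂) + (y₁ - y₂) * (x₃ - x₁) = 0) :
    ∃ hR : W.Nonsingular x₃ y₃, Point.some x₁ y₁ hP + Point.some x₂ y₂ hQ = Point.some x₃ y₃ hR := by
  have hd : x₁ - x₂ ≠ 0 := sub_ne_zero.mpr hx
  rw [Point.add_of_X_ne hx]
  apply some_congr
  · rw [Affine.addX, Affine.slope_of_X_ne hx, h1, h2]
    field_simp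
    linear_combination e1
  · rw [Affine.addY, negY_eq h1 h3, Affine.negAddY, Affine.addX, Affine.slope_of_X_ne hx, h1, h2]
    have hx3 : ((y₁ - y₂) / (x₁ - x₂)) ^ 2 + 0 * ((y₁ - y₂) / (x₁ - x₂)) - 0 - x₁ - x₂ = x₃ := by
      field_simp
      linear_combination e1
    rw [hx3]
    field_simp
    linear_combination -e2

/-- doubling from certificates. -/
theorem double (h1 : W.a₁ = 0) (h2 : W.a₂ = 0) (h3 : W.a₃ = 0) (h2F : (2 : F) ≠ 0)
    {x₁ y₁ x₃ y₃ : F} (hP : W.Nonsingular x₁ y₁) (hy : y₁ ≠ 0)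
    (e1 : (3 * x₁ ^ 2 + W.a₄) ^ 2 = (2 * x₁ + x₃) * (2 * y₁) ^ 2)
    (e2 : (y₃ + y₁) * (2 * y₁) + (3 * x₁ ^ 2 + W.a₄) * (x₃ - x₁) = 0) :
    ∃ hR : W.Nonsingular x₃ y₃, Point.some x₁ y₁ hP + Point.some x₁ y₁ hP = Point.some x₃ y₃ hR := by
  have hne : y₁ ≠ W.negY x₁ y₁ := by
    rw [negY_eq h1 h3]
    intro h
    have : 2 * y₁ = 0 := by linear_combination h
    rcases mul_eq_zero.mp this with h | h
    · exact h2F h
    · exact hy h
  have h2y : 2 * y₁ ≠ 0 := mul_ne_zero h2F hy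
  have hsl : W.slope x₁ x₁ y₁ y₁ = (3 * x₁ ^ 2 + W.a₄) / (2 * y₁) := by
    rw [Affine.slope_of_Y_ne rfl hne, negY_eq h1 h3, h1, h2]
    congr 1 <;> ring
  rw [Point.add_self_of_Y_ne hne]
  apply some_congr
  · rw [Affine.addX, hsl, h1, h2]
    field_simp
    linear_combination e1
  · rw [Affine.addY, negY_eq h1 h3, Affine.negAddY, Affine.addX, hsl, h1, h2]
    have hx3 : ((3 * x₁ ^ 2 + W.a₄) / (2 * y₁)) ^ 2 + 0 * ((3 * x₁ ^ 2 + W.a₄) / (2 * y₁)) - 0
        - x₁ - x₁ = x₃ := by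
      field_simp
      linear_combination e1
    rw [hx3]
    field_simp
    linear_combination -e2

/-- inverse points add to zero. -/
theorem add_neg (h1 : W.a₁ = 0) (h3 : W.a₃ = 0) {x₁ y₁ x₂ y₂ : F}
    (hP : W.Nonsingular x₁ y₁) (hQ : W.Nonsingular x₂ y₂) (hx : x₁ = x₂) (hy : y₁ = -y₂) :
    Point.some x₁ y₁ hP + Point.some x₂ y₂ hQ = 0 :=
  Point.add_of_Y_eq hx (by rw [negY_eq h1 h3]; exact hy)

end Fermat.Agent.X5.Short
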