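import Fermat.Agent.X5.Defs
import Fermat.Agent.X5.Univ.Short

/-!
# Points with prescribed coordinates on the universal curve `UE a b`
-/

set_option autoImplicit false

open WeierstrassCurve WeierstrassCurve.Affine

namespace Fermat.Agent.X5.Univ

open Fermat.Agent.X5

variable {F : Type*} [Field F]

theorem klein_rel {R : Type*} [CommRing R] (a b : R) :
    kT a b ^ 2 + kH a b ^ 3 = 1728 * kf a b ^ 5 := by
  unfold kT kH kf; ring

theorem UE_Δ {R : Type*} [CommRing R] (a b : R) : (UE a b).Δ = -(30 ^ 12 * kf a b ^ 5) := by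
  have h := klein_rel a b
  simp only [UE, WeierstrassCurve.Δ, WeierstrassCurve.b₂, WeierstrassCurve.b₄,
    WeierstrassCurve.b₆, WeierstrassCurve.b₈]
  linear_combination (-307546875000000 : R) * h

/-- standing hypotheses: `ζ` is a primitive fifth root of unity, `30` is invertible and
`kf a b ≠ 0` (i.e. the curve `UE a b` is nonsingular). -/
structure Hyp (ζ a b : F) : Prop where
  hζ : ζ ^ 4 + ζ ^ 3 + ζ ^ 2 + ζ + 1 = 0
  h30 : (30 : F) ≠ 0
  hf : kf a b ≠ 0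

namespace Hyp

variable {ζ a b : F} (h : Hyp ζ a b)

include h

theorem two_ne : (2 : F) ≠ 0 := fun h2 => h.h30 (by linear_combination (15 : F) * h2)

theorem Δ_ne : (UE a b).Δ ≠ 0 := by
  rw [UE_Δ]
  exact neg_ne_zero.mpr (mul_ne_zero (pow_ne_zero _ h.h30) (pow_ne_zero _ h.hf))

theorem ne_of_cert {x y g n : F} (hn : n ≠ 0) (hc : (x - y) * g = n * kf a b ^ 2) :
    x ≠ y := by
  intro hxy
  rw [hxy, sub_self, zero_mul] at hc
  exact mul_ne_zero hn (pow_ne_zero _ h.hf) hc.symm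

theorem ne_zero_of_cert {y g n : F} (hn : n ≠ 0) (hc : y * g = n * kf a b ^ 2) :
    y ≠ 0 := by
  intro hy
  rw [hy, zero_mul] at hc
  exact mul_ne_zero hn (pow_ne_zero _ h.hf) hc.symm

theorem n900 : (900 : F) ≠ 0 := by
  have : (900 : F) = 30 ^ 2 := by norm_num
  rw [this]; exact pow_ne_zero _ h.h30

theorem n13500 : (13500 : F) ≠ 0 := by
  have : (13500 : F) = 30 ^ 3 / 2 := by
    have := h.two_ne
    field_simp
    norm_num
  rw [this]; exact div_ne_zero (pow_ne_zero _ h.h30) h.two_ne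

end Hyp

variable [DecidableEq F]

/-- `P` is the affine point with coordinates `(x, y)`. -/
def IsPt {a b : F} (P : (UE a b).toAffine.Point) (x y : F) : Prop :=
  ∃ hns : (UE a b).toAffine.Nonsingular x y, P = Point.some x y hns

omit [DecidableEq F] in
theorem IsPt.ne_zero {a b : F} {P : (UE a b).toAffine.Point} {x y : F} (hP : IsPt P x y) :
    P ≠ 0 := by
  obtain ⟨h, rfl⟩ := hP
  exact fun h0 => by cases h0

omit [DecidableEq F] in
theorem isPt_of_equation {ζ a b : F} (h : Hyp ζ a b) {x y : F}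
    (he : y ^ 2 = x ^ 3 + 16875 * kH a b * x + 843750 * kT a b) :
    ∃ P : (UE a b).toAffine.Point, IsPt P x y := by
  have heq : (UE a b).toAffine.Equation x y := by
    rw [Affine.equation_iff]
    simp only [UE]
    linear_combination he
  exact ⟨Point.some x y ((Affine.equation_iff_nonsingular_of_Δ_ne_zero h.Δ_ne).mp heq), _, rfl⟩

theorem isPt_chord {a b : F} {P Q : (UE a b).toAffine.Point} {x₁ y₁ x₂ y₂ x₃ y₃ : F}
    (hP : IsPt P x₁ y₁) (hQ : IsPt Q x₂ y₂) (hx : x₁ ≠ x₂)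
    (e1 : (y₁ - y₂) ^ 2 = (x₁ + x₂ + x₃) * (x₁ - x₂) ^ 2)
    (e2 : (y₃ + y₁) * (x₁ - x₂) + (y₁ - y₂) * (x₃ - x₁) = 0) : IsPt (P + Q) x₃ y₃ := by
  obtain ⟨h1, rfl⟩ := hP
  obtain ⟨h2, rfl⟩ := hQ
  exact Short.chord (W := (UE a b).toAffine) rfl rfl rfl h1 h2 hx e1 e2

theorem isPt_double {ζ a b : F} (h : Hyp ζ a b) {P : (UE a b).toAffine.Point} {x₁ y₁ x₃ y₃ : F}
    (hP : IsPt P x₁ y₁) (hy : y₁ ≠ 0)
    (e1 : (3 * x₁ ^ 2 + 16875 * kH a b) ^ 2 = (2 * x₁ + x₃) * (2 * y₁) ^ 2)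
    (e2 : (y₃ + y₁) * (2 * y₁) + (3 * x₁ ^ 2 + 16875 * kH a b) * (x₃ - x₁) = 0) :
    IsPt (P + P) x₃ y₃ := by
  obtain ⟨h1, rfl⟩ := hP
  exact Short.double (W := (UE a b).toAffine) rfl rfl rfl h.two_ne h1 hy e1 e2

theorem isPt_add_neg {a b : F} {P Q : (UE a b).toAffine.Point} {x₁ y₁ x₂ y₂ : F}
    (hP : IsPt P x₁ y₁) (hQ : IsPt Q x₂ y₂) (hx : x₁ = x₂) (hy : y₁ = -y₂) : P + Q = 0 := by
  obtain ⟨h1, rfl⟩ := hP
  obtain ⟨h2, rfl⟩ := hQ
  exact Short.add_neg (W := (UE a b).toAffine) rfl rfl h1 h2 hx hy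

end Fermat.Agent.X5.Univ
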