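import Fermat.Agent.X5.Univ.Pt
import Fermat.Agent.X5.Univ.IdentA
import Fermat.Agent.X5.Univ.IdentM1
import Fermat.Agent.X5.Univ.IdentM2
import Fermat.Agent.X5.Univ.IdentM3
import Fermat.Agent.X5.Univ.IdentM4

/-! GENERATED by gen_torsion.py: the addition steps between universal 5-torsion points. -/

set_option autoImplicit false
set_option linter.style.longLine false

open WeierstrassCurve WeierstrassCurve.Affine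

namespace Fermat.Agent.X5.Univ

open Fermat.Agent.X5

variable {F : Type*} [Field F] [DecidableEq F] {ζ a b : F}

theorem step_02_01 (h : Hyp ζ a b) {P Q : (UE a b).toAffine.Point}
    (hP : IsPt P (X_0_2 ζ a b) (Y_0_2 ζ a b)) (hQ : IsPt Q (X_0_1 ζ a b) (Y_0_1 ζ a b)) :
    IsPt (P + Q) (X_0_3 ζ a b) (Y_0_3 ζ a b) :=
  isPt_chord hP hQ (h.ne_of_cert h.n900 (necert_02_01 ζ a b h.hζ))
    (chord1_02_01 ζ a b h.hζ) (chord2_02_01 ζ a b h.hζ)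

theorem step_03_01 (h : Hyp ζ a b) {P Q : (UE a b).toAffine.Point}
    (hP : IsPt P (X_0_3 ζ a b) (Y_0_3 ζ a b)) (hQ : IsPt Q (X_0_1 ζ a b) (Y_0_1 ζ a b)) :
    IsPt (P + Q) (X_0_4 ζ a b) (Y_0_4 ζ a b) :=
  isPt_chord hP hQ (h.ne_of_cert h.n900 (necert_03_01 ζ a b h.hζ))
    (chord1_03_01 ζ a b h.hζ) (chord2_03_01 ζ a b h.hζ)

theorem step_20_10 (h : Hyp ζ a b) {P Q : (UE a b).toAffine.Point}
    (hP : IsPt P (X_2_0 ζ a b) (Y_2_0 ζ a b)) (hQ : IsPt Q (X_1_0 ζ a b) (Y_1_0 ζ a b)) :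
    IsPt (P + Q) (X_3_0 ζ a b) (Y_3_0 ζ a b) :=
  isPt_chord hP hQ (h.ne_of_cert h.n900 (necert_20_10 ζ a b h.hζ))
    (chord1_20_10 ζ a b h.hζ) (chord2_20_10 ζ a b h.hζ)

theorem step_30_10 (h : Hyp ζ a b) {P Q : (UE a b).toAffine.Point}
    (hP : IsPt P (X_3_0 ζ a b) (Y_3_0 ζ a b)) (hQ : IsPt Q (X_1_0 ζ a b) (Y_1_0 ζ a b)) :
    IsPt (P + Q) (X_4_0 ζ a b) (Y_4_0 ζ a b) :=
  isPt_chord hP hQ (h.ne_of_cert h.n900 (necert_30_10 ζ a b h.hζ))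
    (chord1_30_10 ζ a b h.hζ) (chord2_30_10 ζ a b h.hζ)

theorem step_10_01 (h : Hyp ζ a b) {P Q : (UE a b).toAffine.Point}
    (hP : IsPt P (X_1_0 ζ a b) (Y_1_0 ζ a b)) (hQ : IsPt Q (X_0_1 ζ a b) (Y_0_1 ζ a b)) :
    IsPt (P + Q) (X_1_1 ζ a b) (Y_1_1 ζ a b) :=
  isPt_chord hP hQ (h.ne_of_cert h.n900 (necert_10_01 ζ a b h.hζ))
    (chord1_10_01 ζ a b h.hζ) (chord2_10_01 ζ a b h.hζ)

theorem step_10_02 (h : Hyp ζ a b) {P Q : (UE a b).toAffine.Point}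
    (hP : IsPt P (X_1_0 ζ a b) (Y_1_0 ζ a b)) (hQ : IsPt Q (X_0_2 ζ a b) (Y_0_2 ζ a b)) :
    IsPt (P + Q) (X_1_2 ζ a b) (Y_1_2 ζ a b) :=
  isPt_chord hP hQ (h.ne_of_cert h.n900 (necert_10_02 ζ a b h.hζ))
    (chord1_10_02 ζ a b h.hζ) (chord2_10_02 ζ a b h.hζ)

theorem step_10_03 (h : Hyp ζ a b) {P Q : (UE a b).toAffine.Point}
    (hP : IsPt P (X_1_0 ζ a b) (Y_1_0 ζ a b)) (hQ : IsPt Q (X_0_3 ζ a b) (Y_0_3 ζ a b)) :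
    IsPt (P + Q) (X_1_3 ζ a b) (Y_1_3 ζ a b) :=
  isPt_chord hP hQ (h.ne_of_cert h.n900 (necert_10_03 ζ a b h.hζ))
    (chord1_10_03 ζ a b h.hζ) (chord2_10_03 ζ a b h.hζ)

theorem step_10_04 (h : Hyp ζ a b) {P Q : (UE a b).toAffine.Point}
    (hP : IsPt P (X_1_0 ζ a b) (Y_1_0 ζ a b)) (hQ : IsPt Q (X_0_4 ζ a b) (Y_0_4 ζ a b)) :
    IsPt (P + Q) (X_1_4 ζ a b) (Y_1_4 ζ a b) :=
  isPt_chord hP hQ (h.ne_of_cert h.n900 (necert_10_04 ζ a b h.hζ))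
    (chord1_10_04 ζ a b h.hζ) (chord2_10_04 ζ a b h.hζ)

theorem step_20_01 (h : Hyp ζ a b) {P Q : (UE a b).toAffine.Point}
    (hP : IsPt P (X_2_0 ζ a b) (Y_2_0 ζ a b)) (hQ : IsPt Q (X_0_1 ζ a b) (Y_0_1 ζ a b)) :
    IsPt (P + Q) (X_2_1 ζ a b) (Y_2_1 ζ a b) :=
  isPt_chord hP hQ (h.ne_of_cert h.n900 (necert_20_01 ζ a b h.hζ))
    (chord1_20_01 ζ a b h.hζ) (chord2_20_01 ζ a b h.hζ)

theorem step_20_02 (h : Hyp ζ a b) {P Q : (UE a b).toAffine.Point}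
    (hP : IsPt P (X_2_0 ζ a b) (Y_2_0 ζ a b)) (hQ : IsPt Q (X_0_2 ζ a b) (Y_0_2 ζ a b)) :
    IsPt (P + Q) (X_2_2 ζ a b) (Y_2_2 ζ a b) :=
  isPt_chord hP hQ (h.ne_of_cert h.n900 (necert_20_02 ζ a b h.hζ))
    (chord1_20_02 ζ a b h.hζ) (chord2_20_02 ζ a b h.hζ)

theorem step_20_03 (h : Hyp ζ a b) {P Q : (UE a b).toAffine.Point}
    (hP : IsPt P (X_2_0 ζ a b) (Y_2_0 ζ a b)) (hQ : IsPt Q (X_0_3 ζ a b) (Y_0_3 ζ a b)) :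
    IsPt (P + Q) (X_2_3 ζ a b) (Y_2_3 ζ a b) :=
  isPt_chord hP hQ (h.ne_of_cert h.n900 (necert_20_03 ζ a b h.hζ))
    (chord1_20_03 ζ a b h.hζ) (chord2_20_03 ζ a b h.hζ)

theorem step_20_04 (h : Hyp ζ a b) {P Q : (UE a b).toAffine.Point}
    (hP : IsPt P (X_2_0 ζ a b) (Y_2_0 ζ a b)) (hQ : IsPt Q (X_0_4 ζ a b) (Y_0_4 ζ a b)) :
    IsPt (P + Q) (X_2_4 ζ a b) (Y_2_4 ζ a b) :=
  isPt_chord hP hQ (h.ne_of_cert h.n900 (necert_20_04 ζ a b h.hζ))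
    (chord1_20_04 ζ a b h.hζ) (chord2_20_04 ζ a b h.hζ)

theorem step_30_01 (h : Hyp ζ a b) {P Q : (UE a b).toAffine.Point}
    (hP : IsPt P (X_3_0 ζ a b) (Y_3_0 ζ a b)) (hQ : IsPt Q (X_0_1 ζ a b) (Y_0_1 ζ a b)) :
    IsPt (P + Q) (X_3_1 ζ a b) (Y_3_1 ζ a b) :=
  isPt_chord hP hQ (h.ne_of_cert h.n900 (necert_30_01 ζ a b h.hζ))
    (chord1_30_01 ζ a b h.hζ) (chord2_30_01 ζ a b h.hζ)

theorem step_30_02 (h : Hyp ζ a b) {P Q : (UE a b).toAffine.Point}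
    (hP : IsPt P (X_3_0 ζ a b) (Y_3_0 ζ a b)) (hQ : IsPt Q (X_0_2 ζ a b) (Y_0_2 ζ a b)) :
    IsPt (P + Q) (X_3_2 ζ a b) (Y_3_2 ζ a b) :=
  isPt_chord hP hQ (h.ne_of_cert h.n900 (necert_30_02 ζ a b h.hζ))
    (chord1_30_02 ζ a b h.hζ) (chord2_30_02 ζ a b h.hζ)

theorem step_30_03 (h : Hyp ζ a b) {P Q : (UE a b).toAffine.Point}
    (hP : IsPt P (X_3_0 ζ a b) (Y_3_0 ζ a b)) (hQ : IsPt Q (X_0_3 ζ a b) (Y_0_3 ζ a b)) :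
    IsPt (P + Q) (X_3_3 ζ a b) (Y_3_3 ζ a b) :=
  isPt_chord hP hQ (h.ne_of_cert h.n900 (necert_30_03 ζ a b h.hζ))
    (chord1_30_03 ζ a b h.hζ) (chord2_30_03 ζ a b h.hζ)

theorem step_30_04 (h : Hyp ζ a b) {P Q : (UE a b).toAffine.Point}
    (hP : IsPt P (X_3_0 ζ a b) (Y_3_0 ζ a b)) (hQ : IsPt Q (X_0_4 ζ a b) (Y_0_4 ζ a b)) :
    IsPt (P + Q) (X_3_4 ζ a b) (Y_3_4 ζ a b) :=
  isPt_chord hP hQ (h.ne_of_cert h.n900 (necert_30_04 ζ a b h.hζ))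
    (chord1_30_04 ζ a b h.hζ) (chord2_30_04 ζ a b h.hζ)

theorem step_40_01 (h : Hyp ζ a b) {P Q : (UE a b).toAffine.Point}
    (hP : IsPt P (X_4_0 ζ a b) (Y_4_0 ζ a b)) (hQ : IsPt Q (X_0_1 ζ a b) (Y_0_1 ζ a b)) :
    IsPt (P + Q) (X_4_1 ζ a b) (Y_4_1 ζ a b) :=
  isPt_chord hP hQ (h.ne_of_cert h.n900 (necert_40_01 ζ a b h.hζ))
    (chord1_40_01 ζ a b h.hζ) (chord2_40_01 ζ a b h.hζ)

theorem step_40_02 (h : Hyp ζ a b) {P Q : (UE a b).toAffine.Point}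
    (hP : IsPt P (X_4_0 ζ a b) (Y_4_0 ζ a b)) (hQ : IsPt Q (X_0_2 ζ a b) (Y_0_2 ζ a b)) :
    IsPt (P + Q) (X_4_2 ζ a b) (Y_4_2 ζ a b) :=
  isPt_chord hP hQ (h.ne_of_cert h.n900 (necert_40_02 ζ a b h.hζ))
    (chord1_40_02 ζ a b h.hζ) (chord2_40_02 ζ a b h.hζ)

theorem step_40_03 (h : Hyp ζ a b) {P Q : (UE a b).toAffine.Point}
    (hP : IsPt P (X_4_0 ζ a b) (Y_4_0 ζ a b)) (hQ : IsPt Q (X_0_3 ζ a b) (Y_0_3 ζ a b)) :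
    IsPt (P + Q) (X_4_3 ζ a b) (Y_4_3 ζ a b) :=
  isPt_chord hP hQ (h.ne_of_cert h.n900 (necert_40_03 ζ a b h.hζ))
    (chord1_40_03 ζ a b h.hζ) (chord2_40_03 ζ a b h.hζ)

theorem step_40_04 (h : Hyp ζ a b) {P Q : (UE a b).toAffine.Point}
    (hP : IsPt P (X_4_0 ζ a b) (Y_4_0 ζ a b)) (hQ : IsPt Q (X_0_4 ζ a b) (Y_0_4 ζ a b)) :
    IsPt (P + Q) (X_4_4 ζ a b) (Y_4_4 ζ a b) :=
  isPt_chord hP hQ (h.ne_of_cert h.n900 (necert_40_04 ζ a b h.hζ))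
    (chord1_40_04 ζ a b h.hζ) (chord2_40_04 ζ a b h.hζ)

theorem stepdbl_01 (h : Hyp ζ a b) {P : (UE a b).toAffine.Point}
    (hP : IsPt P (X_0_1 ζ a b) (Y_0_1 ζ a b)) : IsPt (P + P) (X_0_2 ζ a b) (Y_0_2 ζ a b) :=
  isPt_double h hP (h.ne_zero_of_cert h.n13500 (ycert_01 ζ a b h.hζ))
    (dbl1_01 ζ a b h.hζ) (dbl2_01 ζ a b h.hζ)

theorem stepneg_01 (h : Hyp ζ a b) {P Q : (UE a b).toAffine.Point}
    (hP : IsPt P (X_0_4 ζ a b) (Y_0_4 ζ a b)) (hQ : IsPt Q (X_0_1 ζ a b) (Y_0_1 ζ a b)) : P + Q = 0 :=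
  isPt_add_neg hP hQ (negX_01 ζ a b h.hζ) (negY_01 ζ a b h.hζ)

theorem stepdbl_10 (h : Hyp ζ a b) {P : (UE a b).toAffine.Point}
    (hP : IsPt P (X_1_0 ζ a b) (Y_1_0 ζ a b)) : IsPt (P + P) (X_2_0 ζ a b) (Y_2_0 ζ a b) :=
  isPt_double h hP (h.ne_zero_of_cert h.n13500 (ycert_10 ζ a b h.hζ))
    (dbl1_10 ζ a b h.hζ) (dbl2_10 ζ a b h.hζ)

theorem stepneg_10 (h : Hyp ζ a b) {P Q : (UE a b).toAffine.Point}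
    (hP : IsPt P (X_4_0 ζ a b) (Y_4_0 ζ a b)) (hQ : IsPt Q (X_1_0 ζ a b) (Y_1_0 ζ a b)) : P + Q = 0 :=
  isPt_add_neg hP hQ (negX_10 ζ a b h.hζ) (negY_10 ζ a b h.hζ)

end Fermat.Agent.X5.Univ
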