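import Fermat.Agent.X5.Univ.Steps

/-!
# The universal 5-torsion homomorphism

For a field `F` with a primitive fifth root of unity `ζ`, `30 ≠ 0`, and `a b : F` with
`kf a b ≠ 0`, the map `v ↦ (XX ζ v a b, YY ζ v a b)` (and `0 ↦ 0`) is an injective group
homomorphism `ZMod 5 × ZMod 5 →+ (UE a b).Point`.
-/

set_option autoImplicit false
set_option linter.style.longLine false

open WeierstrassCurve WeierstrassCurve.Affine

namespace Fermat.Agent.X5.Univ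

open Fermat.Agent.X5

section Tables

variable {R : Type*} [CommRing R]

/-- table of `X`-coordinate forms indexed by natural numbers. -/
def XXn (ζ a b : R) : ℕ → ℕ → R
  | 0, 1 => X_0_1 ζ a b
  | 0, 2 => X_0_2 ζ a b
  | 0, 3 => X_0_3 ζ a b
  | 0, 4 => X_0_4 ζ a b
  | 1, 0 => X_1_0 ζ a b
  | 1, 1 => X_1_1 ζ a b
  | 1, 2 => X_1_2 ζ a b
  | 1, 3 => X_1_3 ζ a b
  | 1, 4 => X_1_4 ζ a b
  | 2, 0 => X_2_0 ζ a b
  | 2, 1 => X_2_1 ζ a b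
  | 2, 2 => X_2_2 ζ a b
  | 2, 3 => X_2_3 ζ a b
  | 2, 4 => X_2_4 ζ a b
  | 3, 0 => X_3_0 ζ a b
  | 3, 1 => X_3_1 ζ a b
  | 3, 2 => X_3_2 ζ a b
  | 3, 3 => X_3_3 ζ a b
  | 3, 4 => X_3_4 ζ a b
  | 4, 0 => X_4_0 ζ a b
  | 4, 1 => X_4_1 ζ a b
  | 4, 2 => X_4_2 ζ a b
  | 4, 3 => X_4_3 ζ a b
  | 4, 4 => X_4_4 ζ a b
  | _, _ => 0

/-- table of `Y`-coordinate forms indexed by natural numbers. -/
def YYn (ζ a b : R) : ℕ → ℕ → R
  | 0, 1 => Y_0_1 ζ a b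
  | 0, 2 => Y_0_2 ζ a b
  | 0, 3 => Y_0_3 ζ a b
  | 0, 4 => Y_0_4 ζ a b
  | 1, 0 => Y_1_0 ζ a b
  | 1, 1 => Y_1_1 ζ a b
  | 1, 2 => Y_1_2 ζ a b
  | 1, 3 => Y_1_3 ζ a b
  | 1, 4 => Y_1_4 ζ a b
  | 2, 0 => Y_2_0 ζ a b
  | 2, 1 => Y_2_1 ζ a b
  | 2, 2 => Y_2_2 ζ a b
  | 2, 3 => Y_2_3 ζ a b
  | 2, 4 => Y_2_4 ζ a b
  | 3, 0 => Y_3_0 ζ a b
  | 3, 1 => Y_3_1 ζ a b
  | 3, 2 => Y_3_2 ζ a b
  | 3, 3 => Y_3_3 ζ a b
  | 3, 4 => Y_3_4 ζ a b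
  | 4, 0 => Y_4_0 ζ a b
  | 4, 1 => Y_4_1 ζ a b
  | 4, 2 => Y_4_2 ζ a b
  | 4, 3 => Y_4_3 ζ a b
  | 4, 4 => Y_4_4 ζ a b
  | _, _ => 0

/-- the `X`-coordinate form (scaled by 25) of the universal 5-torsion point with label `v`. -/
def XX (ζ : R) (v : ZMod 5 × ZMod 5) (a b : R) : R := XXn ζ a b v.1.val v.2.val

/-- the `Y`-coordinate form (scaled by 125) of the universal 5-torsion point with label `v`. -/
def YY (ζ : R) (v : ZMod 5 × ZMod 5) (a b : R) : R := YYn ζ a b v.1.val v.2.val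

end Tables

variable {F : Type*} [Field F] [DecidableEq F] {ζ a b : F}

theorem isPt_nsmul_row (h : Hyp ζ a b) {P : (UE a b).toAffine.Point}
    (hP : IsPt P (X_0_1 ζ a b) (Y_0_1 ζ a b)) :
    IsPt (2 • P) (X_0_2 ζ a b) (Y_0_2 ζ a b) ∧ IsPt (3 • P) (X_0_3 ζ a b) (Y_0_3 ζ a b) ∧
      IsPt (4 • P) (X_0_4 ζ a b) (Y_0_4 ζ a b) ∧ 5 • P = 0 := by
  have h2 : IsPt (2 • P) (X_0_2 ζ a b) (Y_0_2 ζ a b) := by
    rw [two_nsmul]; exact stepdbl_01 h hP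
  have h3 : IsPt (3 • P) (X_0_3 ζ a b) (Y_0_3 ζ a b) := by
    rw [succ_nsmul]; exact step_02_01 h h2 hP
  have h4 : IsPt (4 • P) (X_0_4 ζ a b) (Y_0_4 ζ a b) := by
    rw [succ_nsmul]; exact step_03_01 h h3 hP
  refine ⟨h2, h3, h4, ?_⟩
  rw [succ_nsmul]; exact stepneg_01 h h4 hP

theorem isPt_nsmul_col (h : Hyp ζ a b) {Q : (UE a b).toAffine.Point}
    (hQ : IsPt Q (X_1_0 ζ a b) (Y_1_0 ζ a b)) :
    IsPt (2 • Q) (X_2_0 ζ a b) (Y_2_0 ζ a b) ∧ IsPt (3 • Q) (X_3_0 ζ a b) (Y_3_0 ζ a b) ∧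
      IsPt (4 • Q) (X_4_0 ζ a b) (Y_4_0 ζ a b) ∧ 5 • Q = 0 := by
  have h2 : IsPt (2 • Q) (X_2_0 ζ a b) (Y_2_0 ζ a b) := by
    rw [two_nsmul]; exact stepdbl_10 h hQ
  have h3 : IsPt (3 • Q) (X_3_0 ζ a b) (Y_3_0 ζ a b) := by
    rw [succ_nsmul]; exact step_20_10 h h2 hQ
  have h4 : IsPt (4 • Q) (X_4_0 ζ a b) (Y_4_0 ζ a b) := by
    rw [succ_nsmul]; exact step_30_10 h h3 hQ
  refine ⟨h2, h3, h4, ?_⟩
  rw [succ_nsmul]; exact stepneg_10 h h4 hQ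

/-- all 24 points. -/
theorem isPt_table (h : Hyp ζ a b) {P Q : (UE a b).toAffine.Point}
    (hP : IsPt P (X_0_1 ζ a b) (Y_0_1 ζ a b)) (hQ : IsPt Q (X_1_0 ζ a b) (Y_1_0 ζ a b))
    (i j : ℕ) (hi : i < 5) (hj : j < 5) (hij : ¬ (i = 0 ∧ j = 0)) :
    IsPt (i • Q + j • P) (XXn ζ a b i j) (YYn ζ a b i j) := by
  obtain ⟨hP2, hP3, hP4, -⟩ := isPt_nsmul_row h hP
  obtain ⟨hQ2, hQ3, hQ4, -⟩ := isPt_nsmul_col h hQ
  have hP1 : IsPt (1 • P) (X_0_1 ζ a b) (Y_0_1 ζ a b) := by rwa [one_nsmul]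
  have hQ1 : IsPt (1 • Q) (X_1_0 ζ a b) (Y_1_0 ζ a b) := by rwa [one_nsmul]
  interval_cases i <;> interval_cases j
  · exact absurd ⟨rfl, rfl⟩ hij
  · rw [zero_nsmul, zero_add]; exact hP1
  · rw [zero_nsmul, zero_add]; exact hP2
  · rw [zero_nsmul, zero_add]; exact hP3
  · rw [zero_nsmul, zero_add]; exact hP4
  · rw [zero_nsmul, add_zero]; exact hQ1
  · exact step_10_01 h hQ1 hP1
  · exact step_10_02 h hQ1 hP2
  · exact step_10_03 h hQ1 hP3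
  · exact step_10_04 h hQ1 hP4
  · rw [zero_nsmul, add_zero]; exact hQ2
  · exact step_20_01 h hQ2 hP1
  · exact step_20_02 h hQ2 hP2
  · exact step_20_03 h hQ2 hP3
  · exact step_20_04 h hQ2 hP4
  · rw [zero_nsmul, add_zero]; exact hQ3
  · exact step_30_01 h hQ3 hP1
  · exact step_30_02 h hQ3 hP2
  · exact step_30_03 h hQ3 hP3
  · exact step_30_04 h hQ3 hP4
  · rw [zero_nsmul, add_zero]; exact hQ4
  · exact step_40_01 h hQ4 hP1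
  · exact step_40_02 h hQ4 hP2
  · exact step_40_03 h hQ4 hP3
  · exact step_40_04 h hQ4 hP4

section Hom

variable {A : Type*} [AddCommGroup A]

theorem zsmul_five {P : A} (hP : 5 • P = 0) : (zmultiplesHom A P) ((5 : ℕ) : ℤ) = 0 := by
  rw [zmultiplesHom_apply, natCast_zsmul]; exact hP

/-- the homomorphism `(i, j) ↦ i • Q + j • P` for two elements killed by `5`. -/
noncomputable def pairHom (P Q : A) (hP : 5 • P = 0) (hQ : 5 • Q = 0) : ZMod 5 × ZMod 5 →+ A :=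
  (ZMod.lift 5 ⟨zmultiplesHom A Q, zsmul_five hQ⟩).coprod
    (ZMod.lift 5 ⟨zmultiplesHom A P, zsmul_five hP⟩)

theorem lift_apply_val (P : A) (hP : 5 • P = 0) (x : ZMod 5) :
    ZMod.lift 5 ⟨zmultiplesHom A P, zsmul_five hP⟩ x = x.val • P := by
  conv_lhs => rw [← ZMod.natCast_zmod_val x]
  have : ((x.val : ℕ) : ZMod 5) = ((x.val : ℤ) : ZMod 5) := by push_cast; rfl
  rw [this, ZMod.lift_coe]
  show (zmultiplesHom A P) (x.val : ℤ) = x.val • P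
  rw [zmultiplesHom_apply, natCast_zsmul]

theorem pairHom_apply (P Q : A) (hP : 5 • P = 0) (hQ : 5 • Q = 0) (v : ZMod 5 × ZMod 5) :
    pairHom P Q hP hQ v = v.1.val • Q + v.2.val • P := by
  unfold pairHom
  rw [AddMonoidHom.coprod_apply, lift_apply_val Q hQ, lift_apply_val P hP]

end Hom

/-- **The universal 5-torsion homomorphism.** -/
theorem exists_torsion_hom (h : Hyp ζ a b) :
    ∃ ψ : ZMod 5 × ZMod 5 →+ (UE a b).toAffine.Point, Function.Injective ψ ∧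
      ∀ v : ZMod 5 × ZMod 5, v ≠ 0 → IsPt (ψ v) (XX ζ v a b) (YY ζ v a b) := by
  obtain ⟨P, hP⟩ := isPt_of_equation h (oncurve_0_1 ζ a b h.hζ)
  obtain ⟨Q, hQ⟩ := isPt_of_equation h (oncurve_1_0 ζ a b h.hζ)
  have hP5 := (isPt_nsmul_row h hP).2.2.2
  have hQ5 := (isPt_nsmul_col h hQ).2.2.2
  have key : ∀ v : ZMod 5 × ZMod 5, v ≠ 0 →
      IsPt (pairHom P Q hP5 hQ5 v) (XX ζ v a b) (YY ζ v a b) := by
    intro v hv
    rw [pairHom_apply]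
    refine isPt_table h hP hQ _ _ (ZMod.val_lt _) (ZMod.val_lt _) ?_
    rintro ⟨h1, h2⟩
    apply hv
    have e1 : v.1 = 0 := (ZMod.val_eq_zero _).mp h1
    have e2 : v.2 = 0 := (ZMod.val_eq_zero _).mp h2
    exact Prod.ext e1 e2
  refine ⟨pairHom P Q hP5 hQ5, ?_, key⟩
  rw [injective_iff_map_eq_zero]
  intro v hv
  by_contra hne
  exact (key v hne).ne_zero hv

end Fermat.Agent.X5.Univ
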